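import Fermat.Agent.GK.Red.LspaceRed

/-!
# GATE-K / K-RED, part 4 : the `x ^ e * y` trick  (helper96)

For the lattices `L(D_y + E) ∩ B` (`div y = e • D_y`, `y` a unit with CONSTANT reduction `κ ≠ 0` on
this component) the reduction of `x` is controlled through `x ^ e * y ∈ L(e • E) ∩ B`:

* `mem_Lspace_of_pow_mem` : root extraction, `x ^ e ∈ L(e • E) ⟹ x ∈ L(E)` (normality);
* `red_mem_Lspace_on_of_pow`, `red_mem_Lfib_on_of_pow` : `x ^ e * y ∈ L(e • E) ∩ S`,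
  `red y = κ` constant `⟹ red x ∈ L~(E~)` on this component.
-/

namespace Fermat.Agent.GK.Red

open Polynomial Fermat.Agent.GJ.J1 Fermat.Agent.GJ.J1.G1 Fermat.Agent.GJ.J1.InstRed

section root

variable {K F : Type*} [Field K] [Field F] [Algebra K F]

/-- **root extraction in the spaces `L(E)`** -/
theorem mem_Lspace_of_pow_mem {t x : F} {e : ℕ} (he : 0 < e) (m : K → ℤ) (mInf : ℤ)
    (h : x ^ e ∈ Lspace K t (fun c => (e : ℤ) * m c) ((e : ℤ) * mInf)) :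
    x ∈ Lspace K t m mInf := by
  rw [mem_Lspace] at h ⊢
  refine ⟨fun c => RegOver.of_pow he ?_, RegOver.of_pow he ?_⟩
  · have h1 := h.1 c
    rw [mul_pow, ← zpow_natCast ((t - algebraMap K F c) ^ m c) e, ← zpow_mul, mul_comm (m c)]
    exact h1
  · have h1 := h.2
    rw [mul_pow, ← zpow_natCast (t⁻¹ ^ mInf) e, ← zpow_mul, mul_comm mInf]
    exact h1

theorem mem_Lfib_of_pow_mem {t x : F} {e : ℕ} (he : 0 < e) (n : ℤ)
    (h : x ^ e ∈ Lfib K t ((e : ℤ) * n)) : x ∈ Lfib K t n := by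
  unfold Lfib at h ⊢
  refine mem_Lspace_of_pow_mem he 0 n ?_
  have h0 : (fun c : K => (e : ℤ) * (0 : K → ℤ) c) = 0 := by
    funext c
    exact mul_zero _
  rw [h0]
  exact h

end root

variable {K F k Ft : Type*} [Field K] [Field F] [Algebra K F] [Field k] [Field Ft] [Algebra k Ft]
variable (R : RedData K F k Ft)

theorem redWt_mul (T : Finset K) (m : K → ℕ) (e : ℕ) (σ : k) :
    redWt R T (fun c => e * m c) σ = e * redWt R T m σ := by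
  unfold redWt
  rw [Finset.mul_sum]

theorem redWtInf_mul (T : Finset K) (m : K → ℕ) (e : ℕ) :
    redWtInf R T (fun c => e * m c) = e * redWtInf R T m := by
  unfold redWtInf
  rw [Finset.mul_sum]

/-- **the `x ^ e * y` trick, general weights**: if `y ∈ S` reduces to a nonzero constant on this
component and `x ^ e * y ∈ L(e • E)`, then `red x ∈ L~(E~)`. -/
theorem red_mem_Lspace_on_of_pow [IsAlgClosed K] (S : Subring F)
    (hSA : ∀ a : R.A, algebraMap K F (a : K) ∈ S) {t : F} (ht : t ∈ R.Rw) (htS : t ∈ S)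
    (htiS : t⁻¹ ∈ S) (htr : Transcendental k (R.red ⟨t, ht⟩))
    (hG : RedRegFinOn R S t) (hGi : RedRegFinOn R S t⁻¹)
    (T : Finset K) (m : K → ℕ) (w : K → ℤ) (hw : ∀ c ∈ T, w c = m c)
    (hw0 : ∀ c, c ∉ T → w c = 0) (mInf : ℕ) {e : ℕ} (he : 0 < e) {x y : F}
    (hxw : x ∈ R.Rw) (hxS : x ∈ S) (hyw : y ∈ R.Rw) (hyS : y ∈ S)
    {κ : k} (hκ : κ ≠ 0) (hy : R.red ⟨y, hyw⟩ = algebraMap k Ft κ)
    (hxy : x ^ e * y ∈ Lspace K t (fun c => (e : ℤ) * w c) ((e : ℤ) * (mInf : ℤ))) :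
    R.red ⟨x, hxw⟩ ∈ Lspace k (R.red ⟨t, ht⟩) (fun σ => (redWt R T m σ : ℤ))
      ((mInf + redWtInf R T m : ℕ) : ℤ) := by
  have hzw : x ^ e * y ∈ R.Rw := R.Rw.mul_mem _ _ (pow_mem hxw e) hyw
  have hzS : x ^ e * y ∈ S := Subring.mul_mem _ (Subring.pow_mem _ hxS e) hyS
  have hxy' : x ^ e * y ∈ Lspace K t (fun c => (e : ℤ) * w c) (((e * mInf : ℕ) : ℤ)) := by
    rw [Nat.cast_mul]
    exact hxy
  have h1 := red_mem_Lspace_on R S hSA ht htS htiS htr hG hGi T (fun c => e * m c)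
    (fun c => (e : ℤ) * w c) (fun c hc => by rw [hw c hc]; push_cast; rfl)
    (fun c hc => by rw [hw0 c hc, mul_zero]) (e * mInf) hxy' hzw hzS
  have hred : R.red ⟨x ^ e * y, hzw⟩ = R.red ⟨x, hxw⟩ ^ e * algebraMap k Ft κ := by
    have : (⟨x ^ e * y, hzw⟩ : R.Rw) = ⟨x, hxw⟩ ^ e * ⟨y, hyw⟩ := rfl
    rw [this, map_mul, map_pow, hy]
  rw [hred] at h1
  refine mem_Lspace_of_pow_mem he _ _ ?_
  have h2 : R.red ⟨x, hxw⟩ ^ e = κ⁻¹ • (R.red ⟨x, hxw⟩ ^ e * algebraMap k Ft κ) := by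
    rw [Algebra.smul_def, mul_comm (R.red ⟨x, hxw⟩ ^ e), ← mul_assoc, ← map_mul,
      inv_mul_cancel₀ hκ, map_one, one_mul]
  rw [h2]
  have h3 := Submodule.smul_mem _ κ⁻¹ h1
  have e1 : (fun σ : k => ((e : ℤ)) * ((redWt R T m σ : ℕ) : ℤ))
      = fun σ : k => ((redWt R T (fun c => e * m c) σ : ℕ) : ℤ) := by
    funext σ
    rw [redWt_mul]
    push_cast
    rfl
  have e2 : (e : ℤ) * ((mInf + redWtInf R T m : ℕ) : ℤ)
      = ((e * mInf + redWtInf R T (fun c => e * m c) : ℕ) : ℤ) := by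
    rw [redWtInf_mul]
    push_cast
    ring
  rw [e1, e2]
  exact h3

/-- **the `x ^ e * y` trick at the cusps**: `x ^ e * y ∈ L(e n (t)_∞) ∩ S`, `red y = κ ≠ 0`
constant `⟹ red x ∈ L~(n (t~)_∞)`. -/
theorem red_mem_Lfib_on_of_pow [IsAlgClosed K] (S : Subring F)
    (hSA : ∀ a : R.A, algebraMap K F (a : K) ∈ S) {t : F} (ht : t ∈ R.Rw) (htS : t ∈ S)
    (htiS : t⁻¹ ∈ S) (htr : Transcendental k (R.red ⟨t, ht⟩))
    (hG : RedRegFinOn R S t) (hGi : RedRegFinOn R S t⁻¹) (n : ℕ) {e : ℕ} (he : 0 < e) {x y : F}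
    (hxw : x ∈ R.Rw) (hxS : x ∈ S) (hyw : y ∈ R.Rw) (hyS : y ∈ S)
    {κ : k} (hκ : κ ≠ 0) (hy : R.red ⟨y, hyw⟩ = algebraMap k Ft κ)
    (hxy : x ^ e * y ∈ Lfib K t ((e : ℤ) * (n : ℤ))) :
    R.red ⟨x, hxw⟩ ∈ Lfib k (R.red ⟨t, ht⟩) (n : ℤ) := by
  have hzw : x ^ e * y ∈ R.Rw := R.Rw.mul_mem _ _ (pow_mem hxw e) hyw
  have hzS : x ^ e * y ∈ S := Subring.mul_mem _ (Subring.pow_mem _ hxS e) hyS
  have hxy' : x ^ e * y ∈ Lfib K t (((e * n : ℕ) : ℤ)) := by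
    rw [Nat.cast_mul]
    exact hxy
  have h1 := red_mem_Lfib_on R S hSA ht htS htiS htr hG hGi (e * n) hxy' hzw hzS
  have hred : R.red ⟨x ^ e * y, hzw⟩ = R.red ⟨x, hxw⟩ ^ e * algebraMap k Ft κ := by
    have : (⟨x ^ e * y, hzw⟩ : R.Rw) = ⟨x, hxw⟩ ^ e * ⟨y, hyw⟩ := rfl
    rw [this, map_mul, map_pow, hy]
  rw [hred] at h1
  refine mem_Lfib_of_pow_mem he _ ?_
  have h2 : R.red ⟨x, hxw⟩ ^ e = κ⁻¹ • (R.red ⟨x, hxw⟩ ^ e * algebraMap k Ft κ) := by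
    rw [Algebra.smul_def, mul_comm (R.red ⟨x, hxw⟩ ^ e), ← mul_assoc, ← map_mul,
      inv_mul_cancel₀ hκ, map_one, one_mul]
  rw [h2, ← Nat.cast_mul]
  exact Submodule.smul_mem _ κ⁻¹ h1

end Fermat.Agent.GK.Red
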