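import Fermat.Agent.GK.MultiVal.TwoRedData
import Fermat.Agent.GK.Red.PowRed

/-!
# GATE-K / N4b : integrality of `⋂ W i` over the Gauss ring, and `RedRegFinOn` for pairs (helper96)

`W : ι → ValuationSubring F` finitely many valuation subrings over one Gauss chart `t`, with a joint
orthonormal chart family `t ^ n * x j` (`helper90`, `Family.exists_joint_family`) of cardinality
`[F : K(t)]`.  Then `ball W = ⋂ W i = ⊕ V₀ · x j` is a FINITE module over the Gauss ring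
`V₀ = W i₀ ∩ K(t)`; in particular every element of `ball W` is integral over `V₀`
(`isIntegral_of_mem_ball`).  This is the hypothesis of `redRegFinOn_of_isIntegral`:

* `redRegFinOn_ball2`, `redRegFinOn_ball2_inv` : the integrality transfer for BOTH components,
  relative to `ball2 R1 R2 = Rw1 ⊓ Rw2`;
* `red_mem_Lfib_ball2` : `x ∈ L(n (t)_∞) ∩ Rw1 ∩ Rw2 ⟹ red_i x ∈ L~_i(n (t~_i)_∞)`, `i = 1, 2`.
-/

set_option autoImplicit false

namespace Fermat.Agent.GK.Red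

open Module Polynomial IntermediateField Fermat.Agent.GK.MultiVal Fermat.Agent.GJ.J1
open Fermat.Agent.GJ.Ortho (chartFamily)

section family

variable {K F : Type*} [Field K] [Field F] [Algebra K F] {ι : Type*}
  {A : ValuationSubring K} {W : ι → ValuationSubring F} {t : F} {J : Type*} [Fintype J]
  {x : J → F}

/-- the coefficients of a family of polynomials as a finitely supported function on `J × ℕ` -/
noncomputable def coeffFinsupp (p : J → K[X]) : J × ℕ →₀ K :=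
  Finsupp.onFinset
    (Finset.univ ×ˢ Finset.range ((Finset.univ.sup fun j => (p j).natDegree) + 1))
    (fun jn => (p jn.1).coeff jn.2)
    (fun jn h => by
      rw [Finset.mem_product]
      refine ⟨Finset.mem_univ _, Finset.mem_range.mpr ?_⟩
      by_contra hlt
      refine h (coeff_eq_zero_of_natDegree_lt ?_)
      have h1 : (p jn.1).natDegree ≤ Finset.univ.sup fun j => (p j).natDegree :=
        Finset.le_sup (f := fun j => (p j).natDegree) (Finset.mem_univ jn.1)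
      omega)

theorem coeffFinsupp_apply (p : J → K[X]) (jn : J × ℕ) :
    coeffFinsupp p jn = (p jn.1).coeff jn.2 := rfl

theorem linearCombination_coeffFinsupp (t : F) (x : J → F) (p : J → K[X]) :
    Finsupp.linearCombination K (chartFamily t x) (coeffFinsupp p)
      = ∑ j, aeval t (p j) * x j := by
  classical
  set N := Finset.univ.sup fun j => (p j).natDegree with hN
  have hdeg : ∀ j, (p j).natDegree < N + 1 := fun j =>
    Nat.lt_succ_of_le (Finset.le_sup (f := fun j => (p j).natDegree) (Finset.mem_univ j))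
  rw [Finsupp.linearCombination_apply, coeffFinsupp,
    Finsupp.onFinset_sum _ (fun _ => by exact zero_smul _ _), Finset.sum_product]
  refine Finset.sum_congr rfl fun j _ => ?_
  rw [aeval_eq_sum_range' (hdeg j), Finset.sum_mul]
  refine Finset.sum_congr rfl fun n _ => ?_
  simp only [chartFamily]
  rw [smul_mul_assoc]

variable [Nonempty ι]

/-- orthonormality of the joint chart family: coefficients of an element of the ball lie in `A` -/
theorem coeff_mem_of_sum_mem (hA : ∀ i (a : K), algebraMap K F a ∈ W i ↔ a ∈ A)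
    (hx : IsOrthoFamily A (ball W) (rad W) (chartFamily t x)) (p : J → K[X])
    (h : ∑ j, aeval t (p j) * x j ∈ ball W) (j : J) (n : ℕ) : (p j).coeff n ∈ A := by
  rw [← linearCombination_coeffFinsupp] at h
  exact (hx.linearCombination_mem_iff (isNormPair_family hA) _).mp h (j, n)

omit [Nonempty ι] [Fintype J] in
/-- **Gauss restriction**: an element of `K(t)` lying in one `W i₀` lies in all `W i`. -/
theorem mem_all_of_mem_adjoin (hA : ∀ i (a : K), algebraMap K F a ∈ W i ↔ a ∈ A)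
    (hG : ∀ i, IsGaussChartFor A (W i) t) {c : F} (hc : c ∈ K⟮t⟯) {i₀ : ι} (h : c ∈ W i₀)
    (i : ι) : c ∈ W i := by
  obtain ⟨a, ha⟩ := exists_scalar_of_mem_adjoin A t hc
  have h0 := ha (W i₀) (hA i₀) (hG i₀)
  have h1 := ha (W i) (hA i) (hG i)
  rw [← ValuationSubring.valuation_le_one_iff] at h ⊢
  rw [h0, ValuationSubring.valuation_le_one_iff, hA i₀] at h
  rw [h1, ValuationSubring.valuation_le_one_iff, hA i]
  exact h

/-- **coordinates of an element of the ball lie in the ball**: if `s(t) z = ∑ p_j(t) x_j` with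
`z ∈ ⋂ W i`, then `s(t) ≠ 0` and every `p_j(t) / s(t)` lies in every `W i`. -/
theorem coord_mem_of_mem_ball (hA : ∀ i (a : K), algebraMap K F a ∈ W i ↔ a ∈ A)
    (hG : ∀ i, IsGaussChartFor A (W i) t)
    (hx : IsOrthoFamily A (ball W) (rad W) (chartFamily t x)) {z : F} (hz : z ∈ ball W)
    {s : K[X]} (hs : s ≠ 0) {p : J → K[X]}
    (h : aeval t s * z = ∑ j, aeval t (p j) * x j) :
    aeval t s ≠ 0 ∧ ∀ j i, aeval t (p j) / aeval t s ∈ W i := by
  obtain ⟨n0, hn0, hmax⟩ := exists_max_coeff_poly A hs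
  set c : K := (s.coeff n0)⁻¹ with hc
  have hc0 : c ≠ 0 := inv_ne_zero hn0
  set u : F := aeval t (C c * s) with hu
  have hu1 : ∀ i, (W i).valuation u = 1 := fun i =>
    (hG i).valuation_aeval_eq_one (hA i) hn0 hmax
  have hunit : IsBallUnit (ball W) u := isBallUnit_ball_iff.mpr hu1
  have hu_eq : u = algebraMap K F c * aeval t s := by
    rw [hu, map_mul, aeval_C]
  have hs0 : aeval t s ≠ 0 := by
    intro h0
    apply hunit.2.2
    rw [hu_eq, h0, mul_zero]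
  refine ⟨hs0, fun j i => ?_⟩
  -- the scaled relation
  have hrel : u * z = ∑ j, aeval t (C c * p j) * x j := by
    rw [hu_eq, mul_assoc, h, Finset.mul_sum]
    refine Finset.sum_congr rfl fun j _ => ?_
    rw [map_mul, aeval_C, mul_assoc]
  have hmem : ∑ j, aeval t (C c * p j) * x j ∈ ball W := by
    rw [← hrel]
    exact (ball W).mul_mem hunit.1 hz
  have hcoef := coeff_mem_of_sum_mem hA hx (fun j => C c * p j) hmem j
  have hp_mem : aeval t (C c * p j) ∈ W i := ((hG i).aeval_mem_iff (hA i) _).mpr hcoef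
  have hq : aeval t (p j) / aeval t s = aeval t (C c * p j) * u⁻¹ := by
    rw [hu_eq, map_mul, aeval_C, mul_inv]
    have hcF : algebraMap K F c ≠ 0 := (_root_.map_ne_zero _).mpr hc0
    field_simp
  rw [hq]
  exact (W i).mul_mem _ _ hp_mem (mem_ball.mp hunit.2.1 i)

/-- the ball as a subalgebra over the Gauss ring `W i₀ ∩ K(t)` -/
def ballSubalgebra (W : ι → ValuationSubring F) (t : F) (i₀ : ι)
    (h : ∀ r : ↥((W i₀).comap (algebraMap K⟮t⟯ F) : ValuationSubring K⟮t⟯),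
      ∀ i, ((r : K⟮t⟯) : F) ∈ W i) :
    Subalgebra ↥((W i₀).comap (algebraMap K⟮t⟯ F) : ValuationSubring K⟮t⟯) F :=
  { ball W with
    algebraMap_mem' := fun r => mem_ball.mpr (h r) }

/-- **integrality of the sup-norm ball over the Gauss ring.** -/
theorem isIntegral_of_mem_ball [FiniteDimensional K⟮t⟯ F]
    (hA : ∀ i (a : K), algebraMap K F a ∈ W i ↔ a ∈ A)
    (hG : ∀ i, IsGaussChartFor A (W i) t)
    (hx : IsOrthoFamily A (ball W) (rad W) (chartFamily t x))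
    (hcard : Fintype.card J = finrank K⟮t⟯ F) (i₀ : ι) {z : F} (hz : z ∈ ball W) :
    IsIntegral ↥((W i₀).comap (algebraMap K⟮t⟯ F) : ValuationSubring K⟮t⟯) z := by
  classical
  have hli := linearIndependent_adjoin_of_chart (hx.linearIndependent (isNormPair_family hA))
  have hspan := hli.span_eq_top_of_card_eq_finrank' hcard
  have hsp := Fermat.Agent.GJ.Ortho.hspan_of_span_eq_top hspan
  have hall : ∀ r : ↥((W i₀).comap (algebraMap K⟮t⟯ F) : ValuationSubring K⟮t⟯),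
      ∀ i, ((r : K⟮t⟯) : F) ∈ W i := fun r i =>
    mem_all_of_mem_adjoin hA hG (r : K⟮t⟯).2 r.2 i
  set S0 := ballSubalgebra W t i₀ hall with hS0
  have hxmem : ∀ j, x j ∈ ball W := fun j => by
    have := hx.mem (j, 0)
    simpa [chartFamily] using this
  have hFG : S0.toSubmodule.FG := by
    have heq : S0.toSubmodule = Submodule.span _ (Set.range x) := by
      apply le_antisymm
      · intro y hy
        have hyB : y ∈ ball W := hy
        obtain ⟨s, hs, p, hp⟩ := hsp y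
        obtain ⟨hs0, hcoord⟩ := coord_mem_of_mem_ball hA hG hx hyB hs hp
        have hKt : ∀ j, aeval t (p j) / aeval t s ∈ K⟮t⟯ := fun j =>
          (mem_adjoin_simple_iff K _).mpr ⟨p j, s, rfl⟩
        have hsum : y = ∑ j, (⟨⟨aeval t (p j) / aeval t s, hKt j⟩, hcoord j i₀⟩ :
            ↥((W i₀).comap (algebraMap K⟮t⟯ F) : ValuationSubring K⟮t⟯)) • x j := by
          have h1 : y = (aeval t s)⁻¹ * (aeval t s * y) := by
            rw [← mul_assoc, inv_mul_cancel₀ hs0, one_mul]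
          rw [h1, hp, Finset.mul_sum]
          refine Finset.sum_congr rfl fun j _ => ?_
          rw [Algebra.smul_def]
          show (aeval t s)⁻¹ * (aeval t (p j) * x j) = (aeval t (p j) / aeval t s) * x j
          rw [div_eq_mul_inv]
          ring
        rw [hsum]
        exact Submodule.sum_mem _ fun j _ =>
          Submodule.smul_mem _ _ (Submodule.subset_span ⟨j, rfl⟩)
      · rw [Submodule.span_le]
        rintro _ ⟨j, rfl⟩
        exact hxmem j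
    rw [heq]
    exact Submodule.fg_span (Set.finite_range _)
  exact IsIntegral.of_mem_of_fg S0 hFG z hz

end family

/-! ### Two reduction data over one Gauss chart -/

section pair

variable {K F k Ft1 Ft2 : Type*} [Field K] [Field F] [Algebra K F] [Field k]
  [Field Ft1] [Algebra k Ft1] [Field Ft2] [Algebra k Ft2]
  {R1 : RedData K F k Ft1} {R2 : RedData K F k Ft2}

/-- **`Rw1 ⊓ Rw2` is integral over the Gauss ring of the chart** (seen from either component),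
when the residue degrees add up to the degree. -/
theorem isIntegral_ball2 (hc : RedCompat R1 R2) (hne : R1.Rw ≠ R2.Rw) {t : F}
    (ht1 : R1.IsGaussChart t) (ht2 : R2.IsGaussChart t) [FiniteDimensional K⟮t⟯ F]
    (hdeg : finrank K⟮t⟯ F ≤
      finrank k⟮R1.red ⟨t, ht1.1⟩⟯ Ft1 + finrank k⟮R2.red ⟨t, ht2.1⟩⟯ Ft2)
    {z : F} (hz : z ∈ ball2 R1 R2) :
    IsIntegral (IntRed.Ov R1 t) z ∧ IsIntegral (IntRed.Ov R2 t) z := by
  have hf1 := (Fermat.Agent.GJ.S37.ResDeg.finrank_residue_le R1.A R1.Rw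
    (fun a ha => (R1.mem_A_iff a).1 ha) R1.red R1.res R1.red_algebraMap R1.red_surjective
    ⟨t, ht1.1⟩ ht1.2).1
  have hf2 := (Fermat.Agent.GJ.S37.ResDeg.finrank_residue_le R2.A R2.Rw
    (fun a ha => (R2.mem_A_iff a).1 ha) R2.red R2.res R2.red_algebraMap R2.red_surjective
    ⟨t, ht2.1⟩ ht2.2).1
  obtain ⟨y1, hy1⟩ := R1.exists_isChartOrtho ht1
  obtain ⟨y2, hy2⟩ := R2.exists_isChartOrtho ht2
  have hy2' : IsChartOrtho R1.A R2.Rw t y2 := by
    have h := hy2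
    rwa [← hc.A_eq] at h
  have hA := pair_forall (W1 := R1.Rw) (W2 := R2.Rw)
    (P := fun W => ∀ a : K, algebraMap K F a ∈ W ↔ a ∈ R1.A) R1.algebraMap_mem_iff' hc.mem_iff₂
  have hG := pair_forall (W1 := R1.Rw) (W2 := R2.Rw)
    (P := fun W => IsGaussChartFor R1.A W t) (R1.isGaussChartFor ht1) (hc.isGaussChartFor₂ ht2)
  have hW := incomparable_pair hne R1.algebraMap_mem_iff' hc.mem_iff₂
    (R1.isGaussChartFor ht1) (hc.isGaussChartFor₂ ht2)
  obtain ⟨x, hx, -, -⟩ := exists_joint_family (π := pairIdx _ _) (y := Sum.elim y1 y2) hW hA hG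
    (pair_isChartOrtho hy1 hy2')
  have hle := card_le_finrank (π := pairIdx _ _) (y := Sum.elim y1 y2) hW hA hG
    (pair_isChartOrtho hy1 hy2')
  have hcard : Fintype.card (Fin (finrank k⟮R1.red ⟨t, ht1.1⟩⟯ Ft1) ⊕
      Fin (finrank k⟮R2.red ⟨t, ht2.1⟩⟯ Ft2)) = finrank K⟮t⟯ F := by
    refine le_antisymm hle ?_
    rw [Fintype.card_sum, Fintype.card_fin, Fintype.card_fin]
    exact hdeg
  have hz' : z ∈ ball ![R1.Rw, R2.Rw] := by
    rw [ball_pair]
    exact hz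
  exact ⟨isIntegral_of_mem_ball hA hG hx hcard (0 : Fin 2) hz',
    isIntegral_of_mem_ball hA hG hx hcard (1 : Fin 2) hz'⟩

/-- **the integrality transfer for both components, relative to `Rw1 ⊓ Rw2`.** -/
theorem redRegFinOn_ball2 (hc : RedCompat R1 R2) (hne : R1.Rw ≠ R2.Rw) {t : F}
    (ht1 : R1.IsGaussChart t) (ht2 : R2.IsGaussChart t) [FiniteDimensional K⟮t⟯ F]
    (hdeg : finrank K⟮t⟯ F ≤
      finrank k⟮R1.red ⟨t, ht1.1⟩⟯ Ft1 + finrank k⟮R2.red ⟨t, ht2.1⟩⟯ Ft2) :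
    RedRegFinOn R1 (ball2 R1 R2) t ∧ RedRegFinOn R2 (ball2 R1 R2) t :=
  ⟨redRegFinOn_of_isIntegral ht1 fun _ hzS _ => (isIntegral_ball2 hc hne ht1 ht2 hdeg hzS).1,
    redRegFinOn_of_isIntegral ht2 fun _ hzS _ => (isIntegral_ball2 hc hne ht1 ht2 hdeg hzS).2⟩

/-- the same for the chart `t⁻¹` -/
theorem redRegFinOn_ball2_inv (hc : RedCompat R1 R2) (hne : R1.Rw ≠ R2.Rw) {t : F}
    (ht1 : R1.IsGaussChart t) (ht2 : R2.IsGaussChart t) [FiniteDimensional K⟮t⟯ F]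
    (hdeg : finrank K⟮t⟯ F ≤
      finrank k⟮R1.red ⟨t, ht1.1⟩⟯ Ft1 + finrank k⟮R2.red ⟨t, ht2.1⟩⟯ Ft2)
    (hti1 : t⁻¹ ∈ R1.Rw) (hti2 : t⁻¹ ∈ R2.Rw) :
    RedRegFinOn R1 (ball2 R1 R2) t⁻¹ ∧ RedRegFinOn R2 (ball2 R1 R2) t⁻¹ :=
  ⟨redRegFinOn_inv_of_isIntegral ht1 hti1
      fun _ hzS _ => (isIntegral_ball2 hc hne ht1 ht2 hdeg hzS).1,
    redRegFinOn_inv_of_isIntegral ht2 hti2
      fun _ hzS _ => (isIntegral_ball2 hc hne ht1 ht2 hdeg hzS).2⟩

theorem algebraMap_mem_ball2 (hc : RedCompat R1 R2) (a : R1.A) :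
    algebraMap K F (a : K) ∈ ball2 R1 R2 :=
  mem_ball2.mpr ⟨(R1.mem_A_iff a).1 a.2, (hc.mem_iff₂ a).mpr a.2⟩

theorem algebraMap_mem_ball2' (hc : RedCompat R1 R2) (a : R2.A) :
    algebraMap K F (a : K) ∈ ball2 R1 R2 :=
  mem_ball2.mpr ⟨(R1.mem_A_iff a).1 (by rw [hc.A_eq]; exact a.2), (R2.mem_A_iff a).1 a.2⟩

/-- **pair reduction of `L(n (t)_∞)`**: both reductions of an element of
`L(n (t)_∞) ∩ Rw1 ∩ Rw2` have poles of order at most `n` over `t~_i = ∞` and nowhere else. -/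
theorem red_mem_Lfib_ball2 [IsAlgClosed K] (hc : RedCompat R1 R2) (hne : R1.Rw ≠ R2.Rw) {t : F}
    (ht1 : R1.IsGaussChart t) (ht2 : R2.IsGaussChart t) [FiniteDimensional K⟮t⟯ F]
    (hdeg : finrank K⟮t⟯ F ≤
      finrank k⟮R1.red ⟨t, ht1.1⟩⟯ Ft1 + finrank k⟮R2.red ⟨t, ht2.1⟩⟯ Ft2)
    (hti1 : t⁻¹ ∈ R1.Rw) (hti2 : t⁻¹ ∈ R2.Rw) (n : ℕ) {x : F} (hx : x ∈ Lfib K t (n : ℤ))
    (h1 : x ∈ R1.Rw) (h2 : x ∈ R2.Rw) :
    R1.red ⟨x, h1⟩ ∈ Lfib k (R1.red ⟨t, ht1.1⟩) (n : ℤ) ∧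
      R2.red ⟨x, h2⟩ ∈ Lfib k (R2.red ⟨t, ht2.1⟩) (n : ℤ) := by
  have hG := redRegFinOn_ball2 hc hne ht1 ht2 hdeg
  have hGi := redRegFinOn_ball2_inv hc hne ht1 ht2 hdeg hti1 hti2
  have htS : t ∈ ball2 R1 R2 := mem_ball2.mpr ⟨ht1.1, ht2.1⟩
  have htiS : t⁻¹ ∈ ball2 R1 R2 := mem_ball2.mpr ⟨hti1, hti2⟩
  have hxS : x ∈ ball2 R1 R2 := mem_ball2.mpr ⟨h1, h2⟩
  exact ⟨red_mem_Lfib_on R1 (ball2 R1 R2) (algebraMap_mem_ball2 hc) ht1.1 htS htiS ht1.2
      hG.1 hGi.1 n hx h1 hxS,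
    red_mem_Lfib_on R2 (ball2 R1 R2) (algebraMap_mem_ball2' hc) ht2.1 htS htiS ht2.2
      hG.2 hGi.2 n hx h2 hxS⟩

/-- **the `x ^ e * y` trick for pairs**: `y ∈ Rw1 ⊓ Rw2` with constant nonzero reductions
`(κ1, κ2)`, `x ^ e * y ∈ L(e n (t)_∞)` `⟹` both reductions of `x` lie in `L~_i(n (t~_i)_∞)`. -/
theorem red_mem_Lfib_ball2_of_pow [IsAlgClosed K] (hc : RedCompat R1 R2) (hne : R1.Rw ≠ R2.Rw)
    {t : F} (ht1 : R1.IsGaussChart t) (ht2 : R2.IsGaussChart t) [FiniteDimensional K⟮t⟯ F]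
    (hdeg : finrank K⟮t⟯ F ≤
      finrank k⟮R1.red ⟨t, ht1.1⟩⟯ Ft1 + finrank k⟮R2.red ⟨t, ht2.1⟩⟯ Ft2)
    (hti1 : t⁻¹ ∈ R1.Rw) (hti2 : t⁻¹ ∈ R2.Rw) (n : ℕ) {e : ℕ} (he : 0 < e) {x y : F}
    (hx1 : x ∈ R1.Rw) (hx2 : x ∈ R2.Rw) (hy1 : y ∈ R1.Rw) (hy2 : y ∈ R2.Rw)
    {κ1 κ2 : k} (hκ1 : κ1 ≠ 0) (hκ2 : κ2 ≠ 0)
    (hr1 : R1.red ⟨y, hy1⟩ = algebraMap k Ft1 κ1) (hr2 : R2.red ⟨y, hy2⟩ = algebraMap k Ft2 κ2)
    (hxy : x ^ e * y ∈ Lfib K t ((e : ℤ) * (n : ℤ))) :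
    R1.red ⟨x, hx1⟩ ∈ Lfib k (R1.red ⟨t, ht1.1⟩) (n : ℤ) ∧
      R2.red ⟨x, hx2⟩ ∈ Lfib k (R2.red ⟨t, ht2.1⟩) (n : ℤ) := by
  have hG := redRegFinOn_ball2 hc hne ht1 ht2 hdeg
  have hGi := redRegFinOn_ball2_inv hc hne ht1 ht2 hdeg hti1 hti2
  have htS : t ∈ ball2 R1 R2 := mem_ball2.mpr ⟨ht1.1, ht2.1⟩
  have htiS : t⁻¹ ∈ ball2 R1 R2 := mem_ball2.mpr ⟨hti1, hti2⟩
  have hxS : x ∈ ball2 R1 R2 := mem_ball2.mpr ⟨hx1, hx2⟩
  have hyS : y ∈ ball2 R1 R2 := mem_ball2.mpr ⟨hy1, hy2⟩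
  exact ⟨red_mem_Lfib_on_of_pow R1 (ball2 R1 R2) (algebraMap_mem_ball2 hc) ht1.1 htS htiS ht1.2
      hG.1 hGi.1 n he hx1 hxS hy1 hyS hκ1 hr1 hxy,
    red_mem_Lfib_on_of_pow R2 (ball2 R1 R2) (algebraMap_mem_ball2' hc) ht2.1 htS htiS ht2.2
      hG.2 hGi.2 n he hx2 hxS hy2 hyS hκ2 hr2 hxy⟩

end pair

end Fermat.Agent.GK.Red
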