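import Fermat.Agent.GJ.J1.Defs
import Fermat.Agent.GJ.J1.LspaceCalc

/-!
# GATE-K / K-RED, part 3 : change of chart `s ↦ s ^ e`  (helper96)

On the second component of the special fibre of `X₀(lN')` the chart `j` reduces to the `l`-th power
`j~ ^ l` of the natural (separable) chart.  The spaces `L~(E)` do not see the difference:

* `regFin_pow_iff`, `regOver_pow_iff` : integrality over `K[s^e]` / regularity over the point
  `s^e = 0` is the same as over `K[s]` / the point `s = 0`;
* `Lspace_pow_char` : in characteristic `p`, `Lspace K (s^p) m mInf = Lspace K s (p · m(·^p)) (p · mInf)`.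
-/

namespace Fermat.Agent.GK.Red

open Polynomial Fermat.Agent.GJ.J1 Fermat.Agent.GJ.J1.G1

variable {K F : Type*} [Field K] [Field F] [Algebra K F]

theorem adjoin_pow_le (s : F) (e : ℕ) : Algebra.adjoin K {s ^ e} ≤ Algebra.adjoin K {s} :=
  Algebra.adjoin_le (Set.singleton_subset_iff.mpr
    (Subalgebra.pow_mem _ (Algebra.self_mem_adjoin_singleton K s) e))

/-- `K[s]` is integral over `K[s^e]` -/
theorem isIntegral_adjoin_pow {s : F} {e : ℕ} (he : 0 < e) {y : F}
    (hy : y ∈ Algebra.adjoin K {s}) : IsIntegral (Algebra.adjoin K {s ^ e}) y := by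
  have hs : IsIntegral (Algebra.adjoin K {s ^ e}) s := by
    refine ⟨X ^ e - C (⟨s ^ e, Algebra.self_mem_adjoin_singleton K _⟩ : Algebra.adjoin K {s ^ e}),
      monic_X_pow_sub_C _ he.ne', ?_⟩
    simp
  induction hy using Algebra.adjoin_induction with
  | mem x hx =>
    rw [Set.mem_singleton_iff.mp hx]
    exact hs
  | algebraMap c =>
    have : algebraMap K F c = algebraMap (Algebra.adjoin K {s ^ e}) F (algebraMap K _ c) := rfl
    rw [this]
    exact isIntegral_algebraMap
  | add x y _ _ hx hy => exact hx.add hy
  | mul x y _ _ hx hy => exact hx.mul hy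

/-- integrality over a smaller subalgebra implies integrality over a bigger one -/
theorem regFin_mono_adjoin {A B : Subalgebra K F} (hAB : A ≤ B) {x : F} (h : IsIntegral A x) :
    IsIntegral B x := by
  obtain ⟨p, hp, hpx⟩ := h
  refine ⟨p.map (Subalgebra.inclusion hAB).toRingHom, hp.map _, ?_⟩
  rw [eval₂_map]
  have hcomp : (algebraMap B F).comp (Subalgebra.inclusion hAB).toRingHom = algebraMap A F :=
    RingHom.ext fun _ => rfl
  rw [hcomp]
  exact hpx

theorem regFin_pow_iff {s x : F} {e : ℕ} (he : 0 < e) : RegFin K (s ^ e) x ↔ RegFin K s x := by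
  constructor
  · intro h
    exact regFin_mono_adjoin (adjoin_pow_le s e) h
  · intro h
    -- transitivity of integrality through the integral closure of `K[s^e]` in `F`
    have hC : ∀ y ∈ Algebra.adjoin K {s}, y ∈ integralClosure (Algebra.adjoin K {s ^ e}) F :=
      fun y hy => isIntegral_adjoin_pow (K := K) he hy
    obtain ⟨p, hp, hpx⟩ := h
    have hx : IsIntegral (integralClosure (Algebra.adjoin K {s ^ e}) F) x := by
      let φ : Algebra.adjoin K {s} →+* integralClosure (Algebra.adjoin K {s ^ e}) F :=
        { toFun := fun y => ⟨y.1, hC y.1 y.2⟩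
          map_one' := rfl
          map_mul' := fun _ _ => rfl
          map_zero' := rfl
          map_add' := fun _ _ => rfl }
      refine ⟨p.map φ, hp.map φ, ?_⟩
      rw [eval₂_map]
      have hcomp : (algebraMap (integralClosure (Algebra.adjoin K {s ^ e}) F) F).comp φ
          = algebraMap (Algebra.adjoin K {s}) F := RingHom.ext fun _ => rfl
      rw [hcomp]
      exact hpx
    exact isIntegral_trans (A := integralClosure (Algebra.adjoin K {s ^ e}) F) x hx

/-- regularity over the point `s^e = 0` is regularity over the point `s = 0`. -/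
theorem regOver_pow_iff [IsAlgClosed K] {s x : F} {e : ℕ} (he : 0 < e) :
    RegOver K (s ^ e) x ↔ RegOver K s x := by
  constructor
  · rintro ⟨b, hb0, hb⟩
    refine ⟨b.comp (X ^ e), ?_, ?_⟩
    · rw [Polynomial.eval_comp, Polynomial.eval_pow, Polynomial.eval_X, zero_pow he.ne']
      exact hb0
    · have : Polynomial.aeval s (b.comp (X ^ e)) = Polynomial.aeval (s ^ e) b := by
        rw [Polynomial.aeval_comp, map_pow, Polynomial.aeval_X]
      rw [this]
      exact (regFin_pow_iff he).mp hb
  · rintro ⟨b, hb0, hb⟩
    -- `b = c ∏ (X - r)`, `r ≠ 0`; take `b' = ∏ (X - r^e)`, then `b'(s^e) = b(s) * g(s)`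
    have hbne : b ≠ 0 := fun h => hb0 (by rw [h, Polynomial.eval_zero])
    have hsplit := IsAlgClosed.splits b
    have hb_eq : b = C b.leadingCoeff * (b.roots.map fun r => X - C r).prod :=
      (Polynomial.Splits.eq_prod_roots hsplit)
    have hroots : ∀ r ∈ b.roots, r ≠ 0 := by
      intro r hr h0
      rw [h0] at hr
      exact hb0 ((Polynomial.mem_roots hbne).mp hr)
    refine ⟨(b.roots.map fun r => X - C (r ^ e)).prod, ?_, ?_⟩
    · rw [Polynomial.eval_multiset_prod, Multiset.map_map]
      refine Multiset.prod_ne_zero ?_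
      intro h0
      obtain ⟨r, hr, h1⟩ := Multiset.mem_map.mp h0
      simp only [Function.comp_apply, Polynomial.eval_sub, Polynomial.eval_X, Polynomial.eval_C,
        zero_sub, neg_eq_zero] at h1
      exact hroots r hr (pow_eq_zero_iff he.ne' |>.mp h1)
    · -- divisibility `b(s) ∣ b'(s^e)` inside `K[s]`
      have hdvd : ∃ g : K[X], Polynomial.aeval (s ^ e) ((b.roots.map fun r => X - C (r ^ e)).prod)
          = Polynomial.aeval s g * Polynomial.aeval s b := by
        have h1 : ∀ m : Multiset K, ∃ g : K[X],
            Polynomial.aeval (s ^ e) ((m.map fun r => X - C (r ^ e)).prod)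
              = Polynomial.aeval s g * Polynomial.aeval s ((m.map fun r => X - C r).prod) := by
          intro m
          induction m using Multiset.induction with
          | empty => exact ⟨1, by simp⟩
          | cons r m ih =>
            obtain ⟨g, hg⟩ := ih
            obtain ⟨q, hq⟩ : (X - C r : K[X]) ∣ X ^ e - C (r ^ e) := by
              rw [Polynomial.dvd_iff_isRoot]
              simp
            refine ⟨g * q, ?_⟩
            rw [Multiset.map_cons, Multiset.prod_cons, Multiset.map_cons, Multiset.prod_cons,
              map_mul, map_mul, hg, map_mul]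
            have h2 : Polynomial.aeval (s ^ e) (X - C (r ^ e) : K[X])
                = Polynomial.aeval s (X ^ e - C (r ^ e) : K[X]) := by
              simp
            rw [h2, hq, map_mul]
            ring
        obtain ⟨g, hg⟩ := h1 b.roots
        refine ⟨g * C b.leadingCoeff⁻¹, ?_⟩
        have hlc : b.leadingCoeff ≠ 0 := Polynomial.leadingCoeff_ne_zero.mpr hbne
        have hbs : Polynomial.aeval s b = algebraMap K F b.leadingCoeff
            * Polynomial.aeval s ((b.roots.map fun r => X - C r).prod) := by
          have := congrArg (Polynomial.aeval s) hb_eq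
          rwa [map_mul, Polynomial.aeval_C] at this
        have hne : algebraMap K F b.leadingCoeff ≠ 0 := (_root_.map_ne_zero _).mpr hlc
        rw [hg, map_mul, Polynomial.aeval_C, map_inv₀, hbs]
        field_simp
      obtain ⟨g, hg⟩ := hdvd
      rw [regFin_pow_iff he, hg, mul_assoc]
      exact (regFin_aeval s g).mul hb

/-- **Frobenius twist of the chart**: in characteristic `p`, the spaces `L(E)` measured with the
chart `s ^ p` are those measured with `s`, all multiplicities multiplied by `p`. -/
theorem Lspace_pow_char [IsAlgClosed K] (p : ℕ) [Fact p.Prime] [CharP K p] (s : F)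
    (m : K → ℤ) (mInf : ℤ) :
    Lspace K (s ^ p) m mInf = Lspace K s (fun d => (p : ℤ) * m (d ^ p)) ((p : ℤ) * mInf) := by
  have hp : 0 < p := (Fact.out : p.Prime).pos
  have : CharP F p := charP_of_injective_algebraMap (algebraMap K F).injective p
  have hsub : ∀ d : K, s ^ p - algebraMap K F (d ^ p) = (s - algebraMap K F d) ^ p := by
    intro d
    rw [map_pow, sub_pow_char]
  ext x
  rw [mem_Lspace, mem_Lspace]
  refine and_congr ⟨fun h d => ?_, fun h c => ?_⟩ ?_
  · have h1 := h (d ^ p)
    rw [hsub d, regOver_pow_iff hp, ← zpow_natCast (s - algebraMap K F d) p, ← zpow_mul] at h1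
    exact h1
  · obtain ⟨d, hd⟩ := IsAlgClosed.exists_pow_nat_eq c hp
    have h1 := h d
    rw [← hd, hsub d, regOver_pow_iff hp, ← zpow_natCast (s - algebraMap K F d) p, ← zpow_mul]
    exact h1
  · rw [← inv_pow, regOver_pow_iff hp, ← zpow_natCast s⁻¹ p, ← zpow_mul]

/-- cusp-only version: `Lfib K (s^p) n = Lfib K s (p n)`. -/
theorem Lfib_pow_char [IsAlgClosed K] (p : ℕ) [Fact p.Prime] [CharP K p] (s : F) (n : ℤ) :
    Lfib K (s ^ p) n = Lfib K s ((p : ℤ) * n) := by
  unfold Lfib
  have h0 : (fun d : K => (p : ℤ) * (0 : K → ℤ) (d ^ p)) = 0 := by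
    funext d
    exact mul_zero _
  rw [Lspace_pow_char p s 0 n, h0]

end Fermat.Agent.GK.Red
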