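import Fermat.Agent.GJ.J1.GenusEq

/-!
# GATE-K / N6 brick : surjectivity of the reduction on the coordinate rings  (helper96)

`R : RedData K F k Ft` with GOOD reduction over the chart `t` (degree preservation `hdeg` and the
genus inequality `hle`, i.e. the J1 situation at a level prime to the residue characteristic).
Then the reduction of the coordinate ring `B = {x ∈ Rw | RegFin K t x}` is the WHOLE coordinate
ring `C = {y | RegFin k t~ y}` of the special fibre, and the same in the chart at infinity: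

* `exists_lift_regFin` : `RegFin k t~ y ⟹ ∃ x ∈ Rw, RegFin K t x ∧ red x = y`;
* `exists_lift_regFin_inv` : the same for the chart `t⁻¹`.

Proof: `y ∈ L~(n (t~)_∞)` for `n` large; `dim L~(n ∞~) = dim L(n ∞)` (Riemann on both fibres with ONE
genus) and the reduction of the lattice `L(n ∞) ∩ Rw` is injective (ORTH), hence onto.
-/

set_option autoImplicit false

noncomputable section

open Polynomial IntermediateField Module

namespace Fermat.Agent.GK.Red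

open Fermat.Agent.GJ.J1 Fermat.Agent.GJ.J1.G1 Fermat.Agent.GJ.J1.G0Genus Fermat.Agent.GJ.J1.IntRed
  Fermat.Agent.GJ.Ortho

variable {K F k Ft : Type*} [Field K] [Field F] [Algebra K F] [Field k] [Field Ft] [Algebra k Ft]

/-- an element integral over `K[s]` lies in `L(n (s)_∞)` for all large `n` -/
theorem regFin_mem_Lfib_large [IsAlgClosed K] {s a : F} (hs : s ≠ 0) (ha : RegFin K s a) :
    ∃ N : ℕ, ∀ n : ℕ, N ≤ n → a ∈ Lfib K s (n : ℤ) := by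
  obtain ⟨N, hN⟩ := exists_regFin_inv_pow_mul hs ha
  refine ⟨N, fun n hn => ?_⟩
  rw [mem_Lfib_iff_of_isAlgClosed, zpow_natCast]
  exact ⟨ha, (hN n hn).regOver⟩

/-- **surjectivity of the reduction on `L(n (t)_∞)` for all large `n`.** -/
theorem exists_lift_of_mem_Lfib [IsAlgClosed K] [IsAlgClosed k] (R : RedData K F k Ft) {t : F}
    (ht : t ∈ R.Rw) (hti : t⁻¹ ∈ R.Rw) (htr : Transcendental k (R.red ⟨t, ht⟩))
    [FiniteDimensional K⟮t⟯ F] [Algebra.IsSeparable K⟮t⟯ F]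
    [Algebra.IsSeparable k⟮R.red ⟨t, ht⟩⟯ Ft]
    (hdeg : finrank K⟮t⟯ F ≤ finrank k⟮R.red ⟨t, ht⟩⟯ Ft)
    (hle : gLat K t ≤ gLat k (R.red ⟨t, ht⟩))
    (hG : R.RedRegFin t) (hGi : R.RedRegFin t⁻¹) :
    ∃ n₀ : ℕ, ∀ n : ℕ, n₀ ≤ n → ∀ y ∈ Lfib k (R.red ⟨t, ht⟩) (n : ℤ),
      ∃ x ∈ Lfib K t (n : ℤ), ∃ hx : x ∈ R.Rw, R.red ⟨x, hx⟩ = y := by
  classical
  have htK : Transcendental K t :=
    Fermat.Agent.GJ.S37.ResDeg.RedData.transcendental_of_isGaussChart R ⟨ht, htr⟩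
  have ht0 : t ≠ 0 := fun h0 => htK (h0 ▸ (isAlgebraic_zero))
  obtain ⟨hfdk, hNeq⟩ := finrank_eq_of_le R ht htr hdeg
  have hg := gLat_eq_of_le R ht hti htr hdeg hle
  have hO : R.HasOrtho := R.hasOrtho_of_finrank_le t ht htr hdeg
  obtain ⟨hfd, -, n0, hn0⟩ := finrank_Lfib (K := K) t htK
  obtain ⟨hfd', -, n0', hn0'⟩ := finrank_Lfib (K := k) (R.red ⟨t, ht⟩) htr
  refine ⟨max n0.toNat n0'.toNat, fun n hn y hy => ?_⟩
  have hnn0 : n0 ≤ (n : ℤ) := by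
    have h1 : n0.toNat ≤ n := le_trans (le_max_left _ _) hn
    have h2 : n0 ≤ (n0.toNat : ℤ) := Int.self_le_toNat n0
    exact le_trans h2 (by exact_mod_cast h1)
  have hnn0' : n0' ≤ (n : ℤ) := by
    have h1 : n0'.toNat ≤ n := le_trans (le_max_right _ _) hn
    have h2 : n0' ≤ (n0'.toNat : ℤ) := Int.self_le_toNat n0'
    exact le_trans h2 (by exact_mod_cast h1)
  have := hfd (n : ℤ)
  have := hfd' (n : ℤ)
  have hdim : finrank k (Lfib k (R.red ⟨t, ht⟩) (n : ℤ)) ≤ finrank K (Lfib K t (n : ℤ)) := by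
    have e1 := hn0 (n : ℤ) hnn0
    have e2 := hn0' (n : ℤ) hnn0'
    rw [← hNeq, ← hg] at e2
    have : (finrank k (Lfib k (R.red ⟨t, ht⟩) (n : ℤ)) : ℤ) = finrank K (Lfib K t (n : ℤ)) := by
      linarith
    exact le_of_eq (by exact_mod_cast this)
  obtain ⟨x, hxV, hxw, hxy⟩ := RedData.HasOrtho.exists_isRed R hO (Lfib K t (n : ℤ))
    (Lfib k (R.red ⟨t, ht⟩) (n : ℤ))
    (fun x hx hxV => red_mem_Lfib R ht hti ht0 hG hGi n hxV hx) hdim hy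
  exact ⟨x, hxV, hxw, hxy⟩

/-- **`red : B → C` is onto** (finite chart): every element of the special fibre integral over
`k[t~]` is the reduction of an element of `Rw` integral over `K[t]`. -/
theorem exists_lift_regFin [IsAlgClosed K] [IsAlgClosed k] (R : RedData K F k Ft) {t : F}
    (ht : t ∈ R.Rw) (hti : t⁻¹ ∈ R.Rw) (htr : Transcendental k (R.red ⟨t, ht⟩))
    [FiniteDimensional K⟮t⟯ F] [Algebra.IsSeparable K⟮t⟯ F]
    [Algebra.IsSeparable k⟮R.red ⟨t, ht⟩⟯ Ft]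
    (hdeg : finrank K⟮t⟯ F ≤ finrank k⟮R.red ⟨t, ht⟩⟯ Ft)
    (hle : gLat K t ≤ gLat k (R.red ⟨t, ht⟩))
    (hG : R.RedRegFin t) (hGi : R.RedRegFin t⁻¹) {y : Ft}
    (hy : RegFin k (R.red ⟨t, ht⟩) y) :
    ∃ x, ∃ hx : x ∈ R.Rw, RegFin K t x ∧ R.red ⟨x, hx⟩ = y := by
  have htK : Transcendental K t :=
    Fermat.Agent.GJ.S37.ResDeg.RedData.transcendental_of_isGaussChart R ⟨ht, htr⟩
  have ht0 : t ≠ 0 := fun h0 => htK (h0 ▸ (isAlgebraic_zero))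
  have htt0 : R.red ⟨t, ht⟩ ≠ 0 := fun h0 => htr (h0 ▸ (isAlgebraic_zero))
  obtain ⟨N, hN⟩ := regFin_mem_Lfib_large htt0 hy
  obtain ⟨n₀, hn₀⟩ := exists_lift_of_mem_Lfib R ht hti htr hdeg hle hG hGi
  obtain ⟨x, hxV, hxw, hxy⟩ := hn₀ (max N n₀) (le_max_right _ _) y (hN _ (le_max_left _ _))
  exact ⟨x, hxw, (regFin_inv_pow_mul_of_mem_Lfib ht0 hxV).1, hxy⟩

/-- **`red : B_∞ → C_∞` is onto** (chart at infinity): every element of the special fibre integral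
over `k[t~⁻¹]` is the reduction of an element of `Rw` integral over `K[t⁻¹]`. -/
theorem exists_lift_regFin_inv [IsAlgClosed K] [IsAlgClosed k] (R : RedData K F k Ft) {t : F}
    (ht : t ∈ R.Rw) (hti : t⁻¹ ∈ R.Rw) (htr : Transcendental k (R.red ⟨t, ht⟩))
    [FiniteDimensional K⟮t⟯ F] [Algebra.IsSeparable K⟮t⟯ F]
    [Algebra.IsSeparable k⟮R.red ⟨t, ht⟩⟯ Ft]
    (hdeg : finrank K⟮t⟯ F ≤ finrank k⟮R.red ⟨t, ht⟩⟯ Ft)
    (hle : gLat K t ≤ gLat k (R.red ⟨t, ht⟩))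
    (hG : R.RedRegFin t) (hGi : R.RedRegFin t⁻¹) {y : Ft}
    (hy : RegFin k (R.red ⟨t, ht⟩)⁻¹ y) :
    ∃ x, ∃ hx : x ∈ R.Rw, RegFin K t⁻¹ x ∧ R.red ⟨x, hx⟩ = y := by
  have htK : Transcendental K t :=
    Fermat.Agent.GJ.S37.ResDeg.RedData.transcendental_of_isGaussChart R ⟨ht, htr⟩
  have ht0 : t ≠ 0 := fun h0 => htK (h0 ▸ (isAlgebraic_zero))
  have htt0 : R.red ⟨t, ht⟩ ≠ 0 := fun h0 => htr (h0 ▸ (isAlgebraic_zero))
  set τ := R.red ⟨t, ht⟩ with hτ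
  -- `τ ^ M * y` is integral over `k[τ]` for `M` large
  obtain ⟨N, hN⟩ := exists_regFin_inv_pow_mul (inv_ne_zero htt0) hy
  obtain ⟨n₀, hn₀⟩ := exists_lift_of_mem_Lfib R ht hti htr hdeg hle hG hGi
  set M := max N n₀ with hM
  have hb : RegFin k τ (τ ^ M * y) := by
    have := hN M (le_max_left _ _)
    rwa [inv_inv] at this
  have hbL : τ ^ M * y ∈ Lfib k τ (M : ℤ) := by
    rw [mem_Lfib_iff_of_isAlgClosed, zpow_natCast]
    refine ⟨hb, ?_⟩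
    have e : τ⁻¹ ^ M * (τ ^ M * y) = y := by
      rw [← mul_assoc, ← mul_pow, inv_mul_cancel₀ htt0, one_pow, one_mul]
    rw [e]
    exact hy.regOver
  obtain ⟨z, hzV, hzw, hzy⟩ := hn₀ M (le_max_right _ _) _ hbL
  have hxw : t⁻¹ ^ M * z ∈ R.Rw := R.Rw.mul_mem _ _ (pow_mem hti M) hzw
  refine ⟨t⁻¹ ^ M * z, hxw, (regFin_inv_pow_mul_of_mem_Lfib ht0 hzV).2, ?_⟩
  have h1 : (⟨t⁻¹ ^ M * z, hxw⟩ : R.Rw) = ⟨t⁻¹, hti⟩ ^ M * ⟨z, hzw⟩ := rfl
  have h2 : R.red ⟨t⁻¹, hti⟩ = τ⁻¹ := by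
    have h3 : (⟨t⁻¹, hti⟩ : R.Rw) * ⟨t, ht⟩ = 1 := Subtype.ext (inv_mul_cancel₀ ht0)
    have h4 := congrArg R.red h3
    rw [map_mul, map_one] at h4
    exact eq_inv_of_mul_eq_one_left h4
  rw [h1, map_mul, map_pow, h2, hzy, ← mul_assoc, ← mul_pow, inv_mul_cancel₀ htt0, one_pow,
    one_mul]

end Fermat.Agent.GK.Red
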