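import Fermat.Agent.GJ.J1.Defs
import Fermat.Agent.GJ.J1.Integrality
import Fermat.Agent.GJ.J1.IntegralityRed
import Fermat.Agent.GJ.J1.IntegralityRedAdapter

/-!
# GATE-K / K-RED, part 1 : integrality transfer RELATIVE to a subring  (helper96)

For a function field with SEVERAL extensions `W j` of the Gauss valuation of `K(s)` (bad reduction:
several components of the special fibre), the J1 statement
"`z` integral over `K[s]`, `w(z) ≥ 0` ⟹ `red z` integral over `k[red s]`" (`RedData.RedRegFin`)
fails for a single component `w = w_i`; it holds for the elements of `B = ⋂ W j`.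

Here `R : RedData K F k Ft` is ONE component and `S : Subring F` is the ring in which all auxiliary
elements live (`S = ⨅ j, (W j).toSubring` in the application).

* `RedRegFinOn R S s` : the relative transfer.
* `redRegFinOn_of_isIntegral` : from integrality of `S` over the Gauss ring of `K(s)`
  (the multi-valuation analogue of `Huniq`).
* `regOver_red_of_regDisc_on` : the disc version (relative form of `RedData.regOver_red_of_regDisc`).
-/

namespace Fermat.Agent.GK.Red

open Polynomial Fermat.Agent.GJ.J1 IntermediateField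

variable {K F k Ft : Type*} [Field K] [Field F] [Algebra K F] [Field k] [Field Ft] [Algebra k Ft]

/-- **relative integrality transfer**: `z ∈ S ∩ Rw` integral over `K[s]` reduces to an element
integral over `k[red s]`. -/
def RedRegFinOn (R : RedData K F k Ft) (S : Subring F) (s : F) : Prop :=
  ∀ (hs : s ∈ R.Rw) (z : F) (hz : z ∈ R.Rw), z ∈ S → RegFin K s z →
    RegFin k (R.red ⟨s, hs⟩) (R.red ⟨z, hz⟩)

/-- the absolute transfer implies every relative one -/
theorem redRegFinOn_of_redRegFin (R : RedData K F k Ft) (S : Subring F) {s : F}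
    (h : R.RedRegFin s) : RedRegFinOn R S s :=
  fun hs z hz _ hzr => h hs z hz hzr

/-- the relative transfer for `S = ⊤` is the absolute one -/
theorem redRegFin_of_redRegFinOn_top (R : RedData K F k Ft) {s : F}
    (h : RedRegFinOn R ⊤ s) : R.RedRegFin s :=
  fun hs z hz hzr => h hs z hz (Subring.mem_top z) hzr

theorem RedRegFinOn.mono {R : RedData K F k Ft} {S S' : Subring F} {s : F}
    (h : RedRegFinOn R S s) (hle : S' ≤ S) : RedRegFinOn R S' s :=
  fun hs z hz hzS hzr => h hs z hz (hle hzS) hzr

/-- **multi-valuation `Huniq` ⟹ relative transfer**: if every element of `S ∩ Rw` is integral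
over `Rw ∩ K(s)` (the Gauss ring of the chart), the transfer holds on `S`. -/
theorem redRegFinOn_of_isIntegral {R : RedData K F k Ft} {S : Subring F} {s : F}
    (hs : R.IsGaussChart s)
    (h : ∀ z : F, z ∈ S → z ∈ R.Rw → IsIntegral (IntRed.Ov R s) z) : RedRegFinOn R S s :=
  fun _ z hz hzS hzr => IntRed.regFin_red_of_isIntegral hs hzr hz (h z hzS hz)

/-- the same for the chart `s⁻¹` (same field `K(s)`) -/
theorem redRegFinOn_inv_of_isIntegral {R : RedData K F k Ft} {S : Subring F} {s : F}
    (hs : R.IsGaussChart s) (hsi : s⁻¹ ∈ R.Rw)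
    (h : ∀ z : F, z ∈ S → z ∈ R.Rw → IsIntegral (IntRed.Ov R s) z) :
    RedRegFinOn R S s⁻¹ := by
  have hsi' : R.IsGaussChart s⁻¹ := IntRed.isGaussChart_inv hs hsi
  refine redRegFinOn_of_isIntegral hsi' fun z hzS hzw => ?_
  have e : K⟮s⁻¹⟯ = K⟮s⟯ := IntRed.adjoin_simple_inv K s
  have h1 := h z hzS hzw
  -- transport integrality along the equality of the two intermediate fields
  obtain ⟨p, hp, hpz⟩ := h1
  have hcoe : ∀ x : K⟮s⟯, (x : F) ∈ K⟮s⁻¹⟯ := fun x => by
    rw [e]
    exact x.2
  let φ : (IntRed.Ov R s) →+* (IntRed.Ov R s⁻¹) :=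
    { toFun := fun x => ⟨⟨(x : K⟮s⟯), hcoe x⟩, x.2⟩
      map_one' := rfl
      map_mul' := fun _ _ => rfl
      map_zero' := rfl
      map_add' := fun _ _ => rfl }
  refine ⟨p.map φ, hp.map φ, ?_⟩
  rw [eval₂_map]
  have hcomp : (algebraMap (IntRed.Ov R s⁻¹) F).comp φ = algebraMap (IntRed.Ov R s) F :=
    RingHom.ext fun _ => rfl
  rw [hcomp]
  exact hpz

section Disc

variable (R : RedData K F k Ft)

/-- values at `s` of polynomials with coefficients in `A` lie in `S` as soon as `s` and the
constants of `A` do -/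
theorem aeval_mem_of_mem (S : Subring F) (hSA : ∀ a : R.A, algebraMap K F (a : K) ∈ S) {s : F}
    (hsS : s ∈ S) (G : Polynomial R.A) : Polynomial.aeval s (G.map R.A.subtype) ∈ S := by
  rw [Polynomial.aeval_def, Polynomial.eval₂_map, Polynomial.eval₂_eq_sum_range]
  refine Subring.sum_mem _ fun i _ => ?_
  exact Subring.mul_mem _ (hSA _) (Subring.pow_mem _ hsS _)

/-- **G4, disc version, relative form.**  If `x ∈ S ∩ Rw` is regular over the whole residue disc
of the point `s = 0`, then `red x` is regular over the point `red s = 0`. -/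
theorem regOver_red_of_regDisc_on [IsAlgClosed K] (S : Subring F)
    (hSA : ∀ a : R.A, algebraMap K F (a : K) ∈ S) {s : F} (hsS : s ∈ S)
    (hG : RedRegFinOn R S s) (hs : s ∈ R.Rw) {x : F} (hx : x ∈ R.Rw) (hxS : x ∈ S)
    (hd : R.RegDisc s x) : RegOver k (R.red ⟨s, hs⟩) (R.red ⟨x, hx⟩) := by
  obtain ⟨b, hb, hbx⟩ := hd
  obtain ⟨G, hG0, hbG⟩ := exists_normalised_of_no_root_in_disc R.A b hb
  have hb0 : b.eval 0 ≠ 0 := hb 0 (by simp)
  have h1 : RegFin K s (Polynomial.aeval s (G.map R.A.subtype) * x) := by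
    have hab : Polynomial.aeval s b
        = algebraMap K F (b.eval 0) * Polynomial.aeval s (G.map R.A.subtype) := by
      conv_lhs => rw [hbG]
      rw [map_mul, Polynomial.aeval_C]
    have : Polynomial.aeval s (G.map R.A.subtype) * x
        = (b.eval 0)⁻¹ • (Polynomial.aeval s b * x) := by
      rw [hab, Algebra.smul_def, ← mul_assoc, ← mul_assoc, ← map_mul,
        inv_mul_cancel₀ hb0, map_one, one_mul]
    rw [this]
    exact hbx.smul _
  have hz : Polynomial.aeval s (G.map R.A.subtype) * x ∈ R.Rw := by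
    refine R.Rw.mul_mem _ _ ?_ hx
    rw [← R.coe_eval₂_baseHom G ⟨s, hs⟩]
    exact (G.eval₂ R.baseHom ⟨s, hs⟩).2
  have hzS : Polynomial.aeval s (G.map R.A.subtype) * x ∈ S :=
    Subring.mul_mem _ (aeval_mem_of_mem R S hSA hsS G) hxS
  have h2 := hG hs _ hz hzS h1
  refine ⟨G.map R.res, ?_, ?_⟩
  · rw [Polynomial.eval_zero_map, hG0, map_one]
    exact one_ne_zero
  · have : R.red ⟨Polynomial.aeval s (G.map R.A.subtype) * x, hz⟩
        = Polynomial.aeval (R.red ⟨s, hs⟩) (G.map R.res) * R.red ⟨x, hx⟩ := by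
      rw [← R.red_eval₂_baseHom G ⟨s, hs⟩, ← map_mul]
      congr 1
      exact Subtype.ext (by simp [R.coe_eval₂_baseHom])
    rw [← this]
    exact h2

end Disc

end Fermat.Agent.GK.Red
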