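import Fermat.Agent.GK.Red.LfibLift
import Fermat.Agent.GJ.S37.LevelPackage

/-!
# GATE-K (helper48): J1-surjectivity on `Lfib` at the good level, chart `j`

* `exists_lift_Lfib_two_charts` : abstract — the target chart `s` only needs degree preservation and
  separability; the genus inequality is imported from an auxiliary TAME chart `t`
  (`gLat` does not depend on the separating chart);
* `exists_lift_Lfib_jF` : at `R := redDataBar N A`, `s := jF N`, every level `N` with `ℓ ∤ N`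
  (`3 ∣ N` if `ℓ = 2`, `2 ∣ N` if `ℓ = 3`): `∃ n0, ∀ n ≥ n0`, every `y ∈ Lfib 𝕜 j~ n` is the
  reduction of some `x ∈ Lfib ℚ̄ j n ∩ Rw`.
-/

set_option autoImplicit false
set_option linter.unusedSectionVars false
set_option synthInstance.maxHeartbeats 400000
set_option maxHeartbeats 1000000

noncomputable section

open AlgebraicCurve IntermediateField Module

namespace Fermat.Agent.GK.LfibLift

open Fermat.Agent.S24 Fermat.Agent.RRh45 Fermat.Agent.GJ.J1 Fermat.Agent.GJ.J1.AbsCore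
  Fermat.Agent.GJ.J1.G1 Fermat.Agent.GJ.J1.G0Genus

section Abstract

variable {K F k Ft : Type*} [Field K] [Field F] [Algebra K F] [Field k] [Field Ft] [Algebra k Ft]

open Polynomial

variable [IsAlgClosed K] [CharZero K] [IsAlgClosed k] (p : ℕ) [Fact p.Prime] [CharP k p]
  (x₀ : F) [IsGen K x₀]

include x₀ in
/-- **J1-surjectivity on `Lfib K s n` from the primitive hypotheses at a tame chart `t`.** -/
theorem exists_lift_Lfib_two_charts (R : RedData K F k Ft)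
    (hunram : ∀ x : F, x ≠ 0 → ∃ c : K, c ≠ 0 ∧
      x / algebraMap K F c ∈ R.Rw ∧ (x / algebraMap K F c)⁻¹ ∈ R.Rw)
    (ι : Ft →ₐ[k] LaurentSeries k)
    {s : F} (hs : s ∈ R.Rw) (hsr : Transcendental k (R.red ⟨s, hs⟩))
    (hdegs : finrank K⟮s⟯ F ≤ finrank k⟮R.red ⟨s, hs⟩⟯ Ft)
    (hords : ¬ (p : ℤ) ∣ (ι (R.red ⟨s, hs⟩)).order)
    {t : F} (ht : t ∈ R.Rw) (htr : Transcendental k (R.red ⟨t, ht⟩))
    (hdeg : finrank K⟮t⟯ F ≤ finrank k⟮R.red ⟨t, ht⟩⟯ Ft)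
    (β : R.A) (hβ : R.res β ≠ 0)
    (hbr : Fermat.Agent.GJ.J1.DiffAdapter.PlaceBranch K t (X * (X - C (β : K))))
    (hord : ¬ (p : ℤ) ∣ (ι (R.red ⟨t, ht⟩)).order) :
    ∃ n0 : ℕ, ∀ n : ℕ, n0 ≤ n → ∀ y ∈ Lfib k (R.red ⟨s, hs⟩) (n : ℤ),
      ∃ (x : F) (hx : x ∈ R.Rw), x ∈ Lfib K s (n : ℤ) ∧ RegFin K s x ∧
        RegFin K s⁻¹ (s⁻¹ ^ n * x) ∧ R.red ⟨x, hx⟩ = y := by
  have hgc : R.IsGaussChart t := ⟨ht, htr⟩
  have hgcs : R.IsGaussChart s := ⟨hs, hsr⟩
  have htK : Transcendental K t := IntRed.transcendental_of_isGaussChart hgc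
  have hsK : Transcendental K s := IntRed.transcendental_of_isGaussChart hgcs
  have hti : t⁻¹ ∈ R.Rw := (Select.isGaussChart_inv hgc).fst
  have hsi : s⁻¹ ∈ R.Rw := (Select.isGaussChart_inv hgcs).fst
  have hfdK : FiniteDimensional K⟮t⟯ F := (IsGen.of_transcendental x₀ htK).finite
  have hfdKs : FiniteDimensional K⟮s⟯ F := (IsGen.of_transcendental x₀ hsK).finite
  have hsepK : Algebra.IsSeparable K⟮t⟯ F := isSeparable_adjoin_of_charZero t
  have hsepKs : Algebra.IsSeparable K⟮s⟯ F := isSeparable_adjoin_of_charZero s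
  obtain ⟨hfdk, -⟩ := Fermat.Agent.GJ.S37.ResDeg.RedData.finrank_red_le R ht htr
  obtain ⟨hfdks, -⟩ := Fermat.Agent.GJ.S37.ResDeg.RedData.finrank_red_le R hs hsr
  -- separability of the special fibre over both charts
  have hexp : ExpChar k p := ExpChar.prime Fact.out
  have hperf : PerfectRing k p := PerfectField.toPerfectRing p
  have hsepk : Algebra.IsSeparable k⟮R.red ⟨t, ht⟩⟯ Ft :=
    isSeparable_adjoin_of_embedding p ι (R.red ⟨t, ht⟩) hord
  have hsepks : Algebra.IsSeparable k⟮R.red ⟨s, hs⟩⟯ Ft :=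
    isSeparable_adjoin_of_embedding p ι (R.red ⟨s, hs⟩) hords
  -- valuation-side inputs at the tame chart
  have hR : ResData R.A R.Rw R.res R.red := ResData.ofRedData R hunram
  have horth : Orth R.A R.Rw := R.orth_of_finrank_le t ht htr hdeg
  have hG : R.RedRegFin t := R.redRegFin_of_finrank_le t ht htr hdeg
  have hGi : R.RedRegFin t⁻¹ := R.redRegFin_inv_of_finrank_le t ht hti htr hdeg
  -- the genus inequality at the tame chart
  have hgle : gLat K t ≤ gLat k (R.red ⟨t, ht⟩) :=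
    R.gLat_le_of_beta hR horth ht htr hG hGi β hβ hbr
  -- the Place API on both fibres
  have hFR : FiniteResidues K F := Fermat.Agent.GJ.FF.finiteResidues x₀
  have hPD : HasPrincipalDivisors K F :=
    Fermat.Agent.GJ.FF.PrincipalOf.hasPrincipalDivisors_gen x₀
  have hNE : Nonempty (Place K F) := Fermat.Agent.GJ.FF.nonempty_place x₀
  have hgenk : IsGen k (R.red ⟨t, ht⟩) := ⟨htr, hfdk⟩
  have hFRk : FiniteResidues k Ft := Fermat.Agent.GJ.FF.finiteResidues (R.red ⟨t, ht⟩)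
  have hPDk : HasPrincipalDivisors k Ft :=
    Fermat.Agent.GJ.FF.PrincipalOf.hasPrincipalDivisors_gen (R.red ⟨t, ht⟩)
  have hNEk : Nonempty (Place k Ft) := Fermat.Agent.GJ.FF.nonempty_place (R.red ⟨t, ht⟩)
  -- transport of the genus inequality to the chart `s`
  have e1 : gLat K s = gLat K t := gLat_eq_gLat_of_separable s t hsK htK
  have e2 : gLat k (R.red ⟨s, hs⟩) = gLat k (R.red ⟨t, ht⟩) :=
    gLat_eq_gLat_of_separable (R.red ⟨s, hs⟩) (R.red ⟨t, ht⟩) hsr htr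
  have hgles : gLat K s ≤ gLat k (R.red ⟨s, hs⟩) := by rw [e1, e2]; exact hgle
  exact exists_lift_Lfib R hs hsi hsr hdegs hgles

end Abstract

section Modular

open ModularCurve Polynomial HahnSeries
open Fermat.Agent.GJ.J1.Val Fermat.Agent.GJ.J1.Haupt Fermat.Agent.GJ.J1.DiffAdapter
  Fermat.Agent.GJ.J1.K18Modular Fermat.Agent.GJ.S18.Front

variable (N : ℕ) [NeZero N] (A : ValuationSubring Kbar)

local notation "𝕜" => IsLocalRing.ResidueField A

/-- the concrete statement with a tame auxiliary chart `t` as a parameter. -/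
theorem exists_lift_Lfib_jF_of_chart {ℓ : ℕ} [Fact ℓ.Prime] (hA : A.LiesOverPrime ℓ)
    (hℓN : ¬ ℓ ∣ N)
    {t : FN N} (hgc : (redDataBar N A).IsGaussChart t)
    (hdeg : Module.finrank Kbar⟮t⟯ (FN N) ≤
      Module.finrank 𝕜⟮(redDataBar N A).red ⟨t, hgc.1⟩⟯ (FresBar N A))
    (β : A) (hβ : (redDataBar N A).res β ≠ 0)
    (hbr : PlaceBranch Kbar t (X * (X - Polynomial.C (β : Kbar))))
    (hord : ¬ (ℓ : ℤ) ∣ ((FresBar N A).val ((redDataBar N A).red ⟨t, hgc.1⟩)).order) :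
    ∃ n0 : ℕ, ∀ n : ℕ, n0 ≤ n →
      ∀ y ∈ Lfib 𝕜 ((redDataBar N A).red ⟨jF N, (isGaussChart_jF N A).1⟩) (n : ℤ),
      ∃ (x : FN N) (hx : x ∈ (redDataBar N A).Rw), x ∈ Lfib Kbar (jF N) (n : ℤ) ∧
        RegFin Kbar (jF N) x ∧ RegFin Kbar (jF N)⁻¹ ((jF N)⁻¹ ^ n * x) ∧
        (redDataBar N A).red ⟨x, hx⟩ = y := by
  have hℓ : ℓ.Prime := Fact.out
  have : CharP 𝕜 ℓ := charP_residue A hℓ hA
  have : IsGen Kbar (jF N) := Fermat.Agent.S24_helper62.isGen_jF N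
  exact exists_lift_Lfib_two_charts ℓ (jF N) (redDataBar N A)
    (Val.unramified A (modularFunctionFieldBar N) (hasGaussFrac_bar N A))
    (FresBar N A).val (isGaussChart_jF N A).1 (isGaussChart_jF N A).2 (hdeg_jF N A hℓN hA)
    (hord_jF N A hℓ _) hgc.1 hgc.2 hdeg β hβ hbr hord

/-- **J1-surjectivity on `Lfib ℚ̄ j n` at the admissible levels**: `ℓ ∤ N`, `3 ∣ N` if `ℓ = 2`,
`2 ∣ N` if `ℓ = 3`. -/
theorem exists_lift_Lfib_jF {ℓ : ℕ} [Fact ℓ.Prime] (hA : A.LiesOverPrime ℓ) (hℓN : ¬ ℓ ∣ N)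
    (h2 : ℓ = 2 → 3 ∣ N) (h3 : ℓ = 3 → 2 ∣ N) :
    ∃ n0 : ℕ, ∀ n : ℕ, n0 ≤ n →
      ∀ y ∈ Lfib 𝕜 ((redDataBar N A).red ⟨jF N, (isGaussChart_jF N A).1⟩) (n : ℤ),
      ∃ (x : FN N) (hx : x ∈ (redDataBar N A).Rw), x ∈ Lfib Kbar (jF N) (n : ℤ) ∧
        RegFin Kbar (jF N) x ∧ RegFin Kbar (jF N)⁻¹ ((jF N)⁻¹ ^ n * x) ∧
        (redDataBar N A).red ⟨x, hx⟩ = y := by
  have hℓ : ℓ.Prime := Fact.out
  have hcp : CharP 𝕜 ℓ := charP_residue A hℓ hA
  have hdegj := hdeg_jF N A hℓN hA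
  by_cases e2 : ℓ = 2
  · have hd := h2 e2
    subst e2
    have h3' : (3 : 𝕜) ≠ 0 := three_ne_zero_of_charP_two A
    exact exists_lift_Lfib_jF_of_chart N A hA hℓN (isGaussChart_tThreeF N A hd)
      (hdeg_tThreeF N A hd h3' _ hdegj) ((-27 : ℤ) : A) (res_neg27_ne_zero hℓ (by norm_num))
      (placeBranch_tThreeF_A N A hd) (hord_tThreeF N A hd hℓ _)
  by_cases e3 : ℓ = 3
  · have hd := h3 e3
    subst e3
    have h2' : (2 : 𝕜) ≠ 0 := two_ne_zero_of_charP_three A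
    exact exists_lift_Lfib_jF_of_chart N A hA hℓN (isGaussChart_tTwoF N A hd)
      (hdeg_tTwoF N A hd h2' _ hdegj) ((-64 : ℤ) : A) (res_neg64_ne_zero hℓ (by norm_num))
      (placeBranch_tTwoF_A N A hd) (hord_tTwoF N A hd hℓ _)
  · exact exists_lift_Lfib_jF_of_chart N A hA hℓN (isGaussChart_jF N A) hdegj ((1728 : ℤ) : A)
      (res_1728_ne_zero hℓ e2 e3) (placeBranch_jF_A N A) (hord_jF N A hℓ _)

end Modular

end Fermat.Agent.GK.LfibLift
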