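import Mathlib
import Fermat.Agent.GJ.J1.GenusEq

/-!
# GATE-K (helper48): J1-surjectivity of reduction on the fibre spaces `Lfib`

`R : RedData K F k Ft`, `t` a Gauss chart with `t⁻¹ ∈ Rw`, `K`, `k` algebraically closed, both fibres
finite separable over the chart, degree preservation `[F : K(t)] ≤ [Ft : k(t~)]` and the genus
inequality `gLat K t ≤ gLat k t~`.  Then for `n` large EVERY element of `Lfib k t~ n` is the
reduction of an element of `Lfib K t n ∩ Rw`: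

* `redBall_Lfib_eq` : `redBall Rw red (Lfib K t n) = Lfib k t~ n` for `n ≥ n0`;
* `exists_lift_Lfib` : the lifting statement, with the two `RegFin` facts of the lift.

(For small `n` the statement can fail: `h¹` may jump on the special fibre.)
-/

set_option autoImplicit false
set_option linter.unusedSectionVars false

noncomputable section

open Polynomial IntermediateField AlgebraicCurve Module

namespace Fermat.Agent.GK.LfibLift

open Fermat.Agent.S24 Fermat.Agent.RRh45 Fermat.Agent.GJ.J1 Fermat.Agent.GJ.J1.InstGen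
  Fermat.Agent.GJ.Ortho Fermat.Agent.GJ.J1.G0Genus

variable {K F k Ft : Type*} [Field K] [Field F] [Algebra K F] [Field k] [Field Ft] [Algebra k Ft]

variable [IsAlgClosed K] [IsAlgClosed k]

/-- **Equality of the reduced fibre space with the fibre space of the reduction**, `n` large. -/
theorem redBall_Lfib_eq (R : RedData K F k Ft) {t : F} (ht : t ∈ R.Rw) (hti : t⁻¹ ∈ R.Rw)
    (htr : Transcendental k (R.red ⟨t, ht⟩))
    [FiniteDimensional K⟮t⟯ F] [Algebra.IsSeparable K⟮t⟯ F]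
    [Algebra.IsSeparable k⟮R.red ⟨t, ht⟩⟯ Ft]
    (hdeg : finrank K⟮t⟯ F ≤ finrank k⟮R.red ⟨t, ht⟩⟯ Ft)
    (hle : gLat K t ≤ gLat k (R.red ⟨t, ht⟩)) :
    ∃ n0 : ℕ, ∀ n : ℕ, n0 ≤ n →
      FiniteDimensional K (Lfib K t (n : ℤ)) ∧ FiniteDimensional k (Lfib k (R.red ⟨t, ht⟩) (n : ℤ)) ∧
      finrank k (Lfib k (R.red ⟨t, ht⟩) (n : ℤ)) = finrank K (Lfib K t (n : ℤ)) ∧
      redBall (k := k) R.Rw R.red (Lfib K t (n : ℤ)) = Lfib k (R.red ⟨t, ht⟩) (n : ℤ) := by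
  classical
  have htK : Transcendental K t :=
    Fermat.Agent.GJ.S37.ResDeg.RedData.transcendental_of_isGaussChart R ⟨ht, htr⟩
  have ht0 : t ≠ 0 := fun h0 => htK (h0 ▸ isAlgebraic_zero)
  obtain ⟨hfdk, hNeq⟩ := finrank_eq_of_le R ht htr hdeg
  have hg : gLat K t = gLat k (R.red ⟨t, ht⟩) := gLat_eq_of_le R ht hti htr hdeg hle
  have hG : R.RedRegFin t := R.redRegFin_of_finrank_le t ht htr hdeg
  have hGi : R.RedRegFin t⁻¹ := R.redRegFin_inv_of_finrank_le t ht hti htr hdeg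
  have hO : R.HasOrtho := R.hasOrtho_of_finrank_le t ht htr hdeg
  obtain ⟨hfdK, -, n0, hn0⟩ := G1.finrank_Lfib (K := K) t htK
  obtain ⟨hfdk', -, n1, hn1⟩ := G1.finrank_Lfib (K := k) (R.red ⟨t, ht⟩) htr
  refine ⟨max n0.toNat n1.toNat, fun n hn => ?_⟩
  have hn0' : n0 ≤ (n : ℤ) := by
    have h1 := Int.self_le_toNat n0
    have h2 : ((n0.toNat : ℕ) : ℤ) ≤ (n : ℤ) := by
      exact_mod_cast le_trans (le_max_left _ _) hn
    omega
  have hn1' : n1 ≤ (n : ℤ) := by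
    have h1 := Int.self_le_toNat n1
    have h2 : ((n1.toNat : ℕ) : ℤ) ≤ (n : ℤ) := by
      exact_mod_cast le_trans (le_max_right _ _) hn
    omega
  have e0 := hn0 (n : ℤ) hn0'
  have e1 := hn1 (n : ℤ) hn1'
  have i1 := hfdK (n : ℤ)
  have i2 := hfdk' (n : ℤ)
  have hdim : finrank k (Lfib k (R.red ⟨t, ht⟩) (n : ℤ)) = finrank K (Lfib K t (n : ℤ)) := by
    have hNeq' : (finrank K⟮t⟯ F : ℤ) = finrank k⟮R.red ⟨t, ht⟩⟯ Ft := by exact_mod_cast hNeq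
    have hg' : (gLat K t : ℤ) = gLat k (R.red ⟨t, ht⟩) := by exact_mod_cast hg
    have : (finrank k (Lfib k (R.red ⟨t, ht⟩) (n : ℤ)) : ℤ) = finrank K (Lfib K t (n : ℤ)) := by
      rw [hNeq', hg'] at e0
      linarith
    exact_mod_cast this
  have hleB : redBall (k := k) R.Rw R.red (Lfib K t (n : ℤ)) ≤ Lfib k (R.red ⟨t, ht⟩) (n : ℤ) := by
    rw [redBall, Submodule.span_le]
    rintro _ ⟨x, hxV, rfl⟩
    exact red_mem_Lfib R ht hti ht0 hG hGi n hxV x.2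
  refine ⟨i1, i2, hdim, ?_⟩
  exact HasOrthoBases.redBall_eq_of_le hO R.orthoRedSystem (Lfib K t (n : ℤ))
    (Lfib k (R.red ⟨t, ht⟩) (n : ℤ)) hleB hdim.le

/-- **J1-surjectivity in `Lfib` form**: for `n ≥ n0` every `y ∈ Lfib k t~ n` is the reduction of
some `x ∈ Lfib K t n ∩ Rw`; the lift is integral over `K[t]` and `t⁻ⁿ x` is integral over
`K[t⁻¹]`. -/
theorem exists_lift_Lfib (R : RedData K F k Ft) {t : F} (ht : t ∈ R.Rw) (hti : t⁻¹ ∈ R.Rw)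
    (htr : Transcendental k (R.red ⟨t, ht⟩))
    [FiniteDimensional K⟮t⟯ F] [Algebra.IsSeparable K⟮t⟯ F]
    [Algebra.IsSeparable k⟮R.red ⟨t, ht⟩⟯ Ft]
    (hdeg : finrank K⟮t⟯ F ≤ finrank k⟮R.red ⟨t, ht⟩⟯ Ft)
    (hle : gLat K t ≤ gLat k (R.red ⟨t, ht⟩)) :
    ∃ n0 : ℕ, ∀ n : ℕ, n0 ≤ n → ∀ y ∈ Lfib k (R.red ⟨t, ht⟩) (n : ℤ),
      ∃ (x : F) (hx : x ∈ R.Rw), x ∈ Lfib K t (n : ℤ) ∧ RegFin K t x ∧
        RegFin K t⁻¹ (t⁻¹ ^ n * x) ∧ R.red ⟨x, hx⟩ = y := by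
  classical
  have htK : Transcendental K t :=
    Fermat.Agent.GJ.S37.ResDeg.RedData.transcendental_of_isGaussChart R ⟨ht, htr⟩
  have ht0 : t ≠ 0 := fun h0 => htK (h0 ▸ isAlgebraic_zero)
  have hO : R.HasOrtho := R.hasOrtho_of_finrank_le t ht htr hdeg
  obtain ⟨n0, hn0⟩ := redBall_Lfib_eq R ht hti htr hdeg hle
  refine ⟨n0, fun n hn y hy => ?_⟩
  obtain ⟨i1, i2, hdim, heq⟩ := hn0 n hn
  have hle' : redBall (k := k) R.Rw R.red (Lfib K t (n : ℤ)) ≤ Lfib k (R.red ⟨t, ht⟩) (n : ℤ) :=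
    heq.le
  obtain ⟨x, hxV, hxy⟩ := HasOrthoBases.exists_lift hO R.orthoRedSystem (Lfib K t (n : ℤ))
    (Lfib k (R.red ⟨t, ht⟩) (n : ℤ)) hle' hdim.le hy
  obtain ⟨h1, h2⟩ := regFin_inv_pow_mul_of_mem_Lfib ht0 hxV
  exact ⟨(x : F), x.2, hxV, h1, h2, hxy⟩

end Fermat.Agent.GK.LfibLift
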