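import Fermat.Agent.GK.Red.RelInt
import Fermat.Agent.GJ.J1.InstRed

/-!
# GATE-K / K-RED, part 2 : componentwise reduction of the spaces `L(E)`, relative form  (helper96)

`R : RedData K F k Ft` is ONE component of the special fibre (one extension `w_i` of the Gauss
valuation of the chart `t`), `S : Subring F` the ring `B = ⋂ W j` of elements integral for ALL
components.  The J1 theorem `InstRed.red_mem_Lspace` needed the integrality transfer
`R.RedRegFin t` for all of `Rw`; with several components this is only true on `S`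
(`RedRegFinOn R S t`).  All auxiliary elements of the J1 proof stay in `S`, so:

* `red_mem_Lspace_on` : `x ∈ L(∑ m c (t = c) + mInf ∞) ∩ Rw ∩ S ⟹
  red x ∈ L~(∑ redWt σ (t~ = σ) + (mInf + redWtInf) ∞)` on this component;
* `red_mem_Lfib_on` : the cusp-only case `E = n (t)_∞`;
* `red_mem_Lt_on` : the instance `a·1_T + b·1_{t2}` in the shape of `InstSpecial.Lt`.
-/

namespace Fermat.Agent.GK.Red

open Polynomial Fermat.Agent.GJ.J1 Fermat.Agent.GJ.J1.G1 Fermat.Agent.GJ.J1.InstRed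

variable {K F k Ft : Type*} [Field K] [Field F] [Algebra K F] [Field k] [Field Ft] [Algebra k Ft]
variable (R : RedData K F k Ft)

/-- the normalised linear factors lie in every subring containing `t` and the constants of `A` -/
theorem coe_nf_mem (S : Subring F) (hSA : ∀ a : R.A, algebraMap K F (a : K) ∈ S) {t : F}
    (ht : t ∈ R.Rw) (htS : t ∈ S) (c : K) : ((nf R ht c : R.Rw) : F) ∈ S := by
  by_cases h : c ∈ R.A
  · rw [coe_nf_of_mem R ht h]
    exact Subring.sub_mem _ htS (hSA ⟨c, h⟩)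
  · have e : ((nf R ht c : R.Rw) : F) = 1 - algebraMap K F c⁻¹ * t := by
      unfold nf
      rw [dif_neg h]
      rfl
    rw [e]
    exact Subring.sub_mem _ (Subring.one_mem _)
      (Subring.mul_mem _ (hSA ⟨c⁻¹, inv_mem_of_notMem R h⟩) htS)

theorem coe_prodNf_mem (S : Subring F) (hSA : ∀ a : R.A, algebraMap K F (a : K) ∈ S) {t : F}
    (ht : t ∈ R.Rw) (htS : t ∈ S) (T : Finset K) (m : K → ℕ) :
    ((prodNf R ht T m : R.Rw) : F) ∈ S := by
  rw [coe_prodNf']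
  exact Subring.prod_mem _ fun c _ => Subring.pow_mem _ (coe_nf_mem R S hSA ht htS c) _

/-- **reduction of `L(E)` on one component, relative to `S`.** -/
theorem red_mem_Lspace_on [IsAlgClosed K] (S : Subring F)
    (hSA : ∀ a : R.A, algebraMap K F (a : K) ∈ S) {t : F} (ht : t ∈ R.Rw) (htS : t ∈ S)
    (htiS : t⁻¹ ∈ S) (htr : Transcendental k (R.red ⟨t, ht⟩))
    (hG : RedRegFinOn R S t) (hGi : RedRegFinOn R S t⁻¹)
    (T : Finset K) (m : K → ℕ) (w : K → ℤ) (hw : ∀ c ∈ T, w c = m c)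
    (hw0 : ∀ c, c ∉ T → w c = 0) (mInf : ℕ) {x : F}
    (hx : x ∈ Lspace K t w (mInf : ℤ)) (hxw : x ∈ R.Rw) (hxS : x ∈ S) :
    R.red ⟨x, hxw⟩ ∈ Lspace k (R.red ⟨t, ht⟩) (fun σ => (redWt R T m σ : ℤ))
      ((mInf + redWtInf R T m : ℕ) : ℤ) := by
  classical
  have htc := ne_algebraMap_of_red_transcendental R ht htr
  have htt : ∀ σ : k, R.red ⟨t, ht⟩ ≠ algebraMap k Ft σ := ne_algebraMap_of_transcendental htr
  have ht0 : t ≠ 0 := by simpa using htc 0
  have htt0 : R.red ⟨t, ht⟩ ≠ 0 := by simpa using htt 0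
  have htw' : t⁻¹ ∈ R.Rw := inv_mem_Rw R ht htt0
  have hz : RegFin K t ((∏ c ∈ T, (t - algebraMap K F c) ^ m c) * x) := by
    have h := (mem_Lspace_iff_mul_mem_Lfib htc T w hw0 (mInf : ℤ) x).mp hx
    rw [mem_Lfib] at h
    have e : ∏ c ∈ T, (t - algebraMap K F c) ^ (w c) = ∏ c ∈ T, (t - algebraMap K F c) ^ m c :=
      Finset.prod_congr rfl fun c hc => by rw [hw c hc, zpow_natCast]
    rw [e] at h
    exact regFin_of_forall_regOver h.1
  have h2 : RegOver K t⁻¹ (t⁻¹ ^ (mInf : ℤ) * x) := hx.2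
  rw [mem_Lspace]
  constructor
  · -- finite points
    intro σ
    have e0 : ((prodNf R ht T m * ⟨x, hxw⟩ : R.Rw) : F)
        = algebraMap K F (∏ c ∈ T, (nc R c) ^ m c)
          * ((∏ c ∈ T, (t - algebraMap K F c) ^ m c) * x) := by
      change ((prodNf R ht T m : R.Rw) : F) * x = _
      rw [coe_prodNf, mul_assoc]
    have hPx : RegFin K t (((prodNf R ht T m * ⟨x, hxw⟩ : R.Rw) : F)) := by
      rw [e0]
      exact (regFin_algebraMap t _).mul hz
    have hPS : ((prodNf R ht T m * ⟨x, hxw⟩ : R.Rw) : F) ∈ S :=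
      Subring.mul_mem _ (coe_prodNf_mem R S hSA ht htS T m) hxS
    have hred := hG ht _ (prodNf R ht T m * ⟨x, hxw⟩).2 hPS hPx
    have e1 : R.red ⟨((prodNf R ht T m * ⟨x, hxw⟩ : R.Rw) : F),
        (prodNf R ht T m * ⟨x, hxw⟩).2⟩ = R.red (prodNf R ht T m) * R.red ⟨x, hxw⟩ := by
      rw [← map_mul]
    rw [e1] at hred
    obtain ⟨U, hU, hsplit⟩ := red_prodNf_split R ht htt T m σ
    rw [hsplit, mul_assoc] at hred
    have h3 := (hU.mul_iff _).mp (RegFin.regOver_sub hred σ)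
    rw [zpow_natCast]
    exact h3
  · -- the point at infinity
    set Sa := T.filter (fun c => c ∈ R.A) with hSa
    set Sb := T.filter (fun c => ¬ c ∈ R.A) with hSb
    have hQ := regFin_inv_of_regFin_of_regOver ht0 T m (mInf : ℤ) hz h2
    set y : R.Rw := prodNf R ht Sb m * ⟨x, hxw⟩ with hy
    have hredy : R.red y = R.red ⟨x, hxw⟩ := by
      rw [hy, map_mul, red_prodNf_big R ht Sb m fun c hc => (Finset.mem_filter.mp hc).2, one_mul]
    have hyS : (y : F) ∈ S := Subring.mul_mem _ (coe_prodNf_mem R S hSA ht htS Sb m) hxS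
    set N : ℕ := mInf + redWtInf R T m with hN
    have hκ : (∏ c ∈ Sb, ((nc R c)⁻¹) ^ m c) ≠ 0 :=
      Finset.prod_ne_zero_iff.mpr fun c _ => pow_ne_zero _ (inv_ne_zero (nc_ne_zero R c))
    have hκ' : algebraMap K F (∏ c ∈ Sb, ((nc R c)⁻¹) ^ m c) ≠ 0 :=
      (_root_.map_ne_zero _).mpr hκ
    have e3 : Polynomial.aeval t⁻¹ (Qpoly T m) * (t⁻¹ ^ (mInf : ℤ) * x)
        = algebraMap K F (∏ c ∈ Sb, ((nc R c)⁻¹) ^ m c)
          * (Polynomial.aeval t⁻¹ (Qpoly Sa m) * (t⁻¹ ^ N * (y : F))) := by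
      rw [Qpoly_split T m (fun c => c ∈ R.A), map_mul, aeval_Qpoly_eq_prodNf R ht ht0 Sb m,
        zpow_natCast, hN, pow_add]
      change _ = _ * (_ * (_ * (((prodNf R ht Sb m : R.Rw) : F) * x)))
      unfold redWtInf
      ring
    have hQ' : RegFin K t⁻¹ (Polynomial.aeval t⁻¹ (Qpoly Sa m) * (t⁻¹ ^ N * (y : F))) := by
      have e4 : Polynomial.aeval t⁻¹ (Qpoly Sa m) * (t⁻¹ ^ N * (y : F))
          = algebraMap K F (∏ c ∈ Sb, ((nc R c)⁻¹) ^ m c)⁻¹
            * (Polynomial.aeval t⁻¹ (Qpoly T m) * (t⁻¹ ^ (mInf : ℤ) * x)) := by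
        rw [e3, map_inv₀, inv_mul_cancel_left₀ hκ']
      rw [e4]
      exact (regFin_algebraMap t⁻¹ _).mul hQ
    have hdisc : R.RegDisc t⁻¹ (t⁻¹ ^ N * (y : F)) :=
      ⟨Qpoly Sa m, fun c' hc' =>
        eval_Qpoly_ne_zero R Sa m (fun c hc => (Finset.mem_filter.mp hc).2) hc', hQ'⟩
    have hyw' : t⁻¹ ^ N * (y : F) ∈ R.Rw := R.Rw.mul_mem _ _ (pow_mem htw' N) y.2
    have hyS' : t⁻¹ ^ N * (y : F) ∈ S := Subring.mul_mem _ (Subring.pow_mem _ htiS N) hyS
    have h5 := regOver_red_of_regDisc_on R S hSA htiS hGi htw' hyw' hyS' hdisc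
    rw [red_inv R ht htw' ht0] at h5
    have e2 : R.red ⟨t⁻¹ ^ N * (y : F), hyw'⟩ = (R.red ⟨t, ht⟩)⁻¹ ^ N * R.red ⟨x, hxw⟩ := by
      have : (⟨t⁻¹ ^ N * (y : F), hyw'⟩ : R.Rw) = ⟨t⁻¹, htw'⟩ ^ N * y := Subtype.ext rfl
      rw [this, map_mul, map_pow, red_inv R ht htw' ht0, hredy]
    rw [e2] at h5
    rw [zpow_natCast]
    exact h5

/-- **the cusp-only case** `E = n (t)_∞` : `Lfib K t n ∩ Rw ∩ S` reduces into `Lfib k t~ n`. -/
theorem red_mem_Lfib_on [IsAlgClosed K] (S : Subring F)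
    (hSA : ∀ a : R.A, algebraMap K F (a : K) ∈ S) {t : F} (ht : t ∈ R.Rw) (htS : t ∈ S)
    (htiS : t⁻¹ ∈ S) (htr : Transcendental k (R.red ⟨t, ht⟩))
    (hG : RedRegFinOn R S t) (hGi : RedRegFinOn R S t⁻¹) (n : ℕ) {x : F}
    (hx : x ∈ Lfib K t (n : ℤ)) (hxw : x ∈ R.Rw) (hxS : x ∈ S) :
    R.red ⟨x, hxw⟩ ∈ Lfib k (R.red ⟨t, ht⟩) (n : ℤ) := by
  have h := red_mem_Lspace_on R S hSA ht htS htiS htr hG hGi ∅ (fun _ => 0) 0
    (fun c hc => absurd hc (Finset.notMem_empty c)) (fun _ _ => rfl) n hx hxw hxS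
  have e1 : (fun σ : k => (redWt R ∅ (fun _ => 0) σ : ℤ)) = 0 := by
    funext σ
    simp [redWt]
  have e2 : ((n + redWtInf R ∅ (fun _ => 0) : ℕ) : ℤ) = (n : ℤ) := by
    simp [redWtInf]
  rw [e1, e2] at h
  exact h

/-- **the instance `a·1_T + b·1_{t2}`** in the shape of `InstSpecial.Lt` (relative twin of
`InstRed.red_mem_Lt_of_weight`). -/
theorem red_mem_Lt_on [IsAlgClosed K] (S : Subring F)
    (hSA : ∀ a : R.A, algebraMap K F (a : K) ∈ S) {t : F} (ht : t ∈ R.Rw) (htS : t ∈ S)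
    (htiS : t⁻¹ ∈ S) (htr : Transcendental k (R.red ⟨t, ht⟩))
    (hG : RedRegFinOn R S t) (hGi : RedRegFinOn R S t⁻¹)
    (T : Finset K) (ε : ℕ) (t2 : K) (ht2 : t2 ∈ R.A)
    (hsep : ∀ c ∈ T, ∀ hc : c ∈ R.A, R.res ⟨c, hc⟩ ≠ R.res ⟨t2, ht2⟩) (a b : ℕ)
    (w : K → ℤ) (hw : ∀ c, w c = (wtNat T t2 a b c : ℤ)) {x : F}
    (hx : x ∈ Lspace K t w ((a * ε : ℕ) : ℤ)) (hxw : x ∈ R.Rw) (hxS : x ∈ S) :
    R.red ⟨x, hxw⟩ ∈ InstSpecial.Lt (R.red ⟨t, ht⟩) (mult R T) (ε + big R T)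
      (R.res ⟨t2, ht2⟩) a b := by
  classical
  have ht2T : t2 ∉ T := fun h => hsep t2 h ht2 rfl
  have hw0 : ∀ c, c ∉ insert t2 T → w c = 0 := by
    intro c hc
    rw [Finset.mem_insert, not_or] at hc
    rw [hw c]
    unfold wtNat
    rw [if_neg hc.2, if_neg hc.1]
    rfl
  have h := red_mem_Lspace_on R S hSA ht htS htiS htr hG hGi (insert t2 T) (wtNat T t2 a b) w
    (fun c _ => hw c) hw0 (a * ε) hx hxw hxS
  unfold InstSpecial.Lt
  have e1 : (fun σ => (redWt R (insert t2 T) (wtNat T t2 a b) σ : ℤ))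
      = InstSpecial.wt (mult R T) (R.res ⟨t2, ht2⟩) a b := by
    funext σ
    rw [redWt_insert R T ht2 ht2T a b σ]
    unfold InstSpecial.wt
    push_cast
    congr 1
  have e2 : ((a * ε + redWtInf R (insert t2 T) (wtNat T t2 a b) : ℕ) : ℤ)
      = (a : ℤ) * ((ε + big R T : ℕ) : ℤ) := by
    rw [redWtInf_insert R T ht2 ht2T a b]
    push_cast
    ring
  rw [e1, e2] at h
  exact h

end Fermat.Agent.GK.Red
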